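import Mathlib
import Fermat.Prelude.Def_GaloisRep_DeformationCondition

set_option autoImplicit false
set_option linter.unusedSectionVars false
set_option linter.style.haveILetI false
set_option linter.unnecessarySimpa false

namespace Fermat.Agent.S53.H96

open IsLocalRing

section Basic

variable {𝒪 : Type} [CommRing 𝒪] [IsLocalRing 𝒪]
variable {A : Type} [CommRing A] [IsLocalRing A] [Algebra 𝒪 A]

omit [IsLocalRing 𝒪] in
/-- If `𝒪 → A → A/m` is surjective, every element of `A` is a constant modulo the maximal ideal. -/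
lemma exists_sub_mem (h : Function.Surjective (residue A ∘ algebraMap 𝒪 A)) (a : A) :
    ∃ c : 𝒪, a - algebraMap 𝒪 A c ∈ maximalIdeal A := by
  obtain ⟨c, hc⟩ := h (residue A a)
  refine ⟨c, ?_⟩
  rw [← residue_eq_zero_iff, map_sub, sub_eq_zero]
  exact hc.symm

/-- If `𝒪 → A → A/m` is surjective, then `𝒪 → A` maps the maximal ideal into the maximal ideal. -/
lemma algebraMap_mem_of_mem (h : Function.Surjective (residue A ∘ algebraMap 𝒪 A)) {c : 𝒪}
    (hc : c ∈ maximalIdeal 𝒪) : algebraMap 𝒪 A c ∈ maximalIdeal A := by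
  by_contra hu
  have hu' : IsUnit (algebraMap 𝒪 A c) := by
    by_contra h'
    exact hu ((mem_maximalIdeal _).mpr h')
  -- pick `d` with `residue (c d) = 1`
  obtain ⟨u, hu''⟩ := hu'
  obtain ⟨d, hd⟩ := h (residue A (↑u⁻¹ : A))
  have h1 : residue A (algebraMap 𝒪 A (c * d)) = 1 := by
    rw [map_mul, map_mul]
    simp only [Function.comp_apply] at hd
    rw [hd, ← hu'', ← map_mul, Units.mul_inv, map_one]
  have h2 : c * d - 1 ∈ maximalIdeal 𝒪 := by
    by_contra hcd
    have hunit : IsUnit (c * d - 1) := by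
      by_contra h'
      exact hcd ((mem_maximalIdeal _).mpr h')
    -- then its image is a unit, but its residue is zero
    have : IsUnit (algebraMap 𝒪 A (c * d - 1)) := hunit.map _
    have hz : residue A (algebraMap 𝒪 A (c * d - 1)) = 0 := by
      rw [map_sub, map_sub, h1, map_one, map_one, sub_self]
    exact ((residue_eq_zero_iff _).mp hz) this
  have h3 : c * d ∈ maximalIdeal 𝒪 := Ideal.mul_mem_right _ _ hc
  have h4 : (1 : 𝒪) ∈ maximalIdeal 𝒪 := by
    have := Ideal.sub_mem _ h3 h2
    simpa using this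
  exact (Ideal.ne_top_iff_one _).mp (maximalIdeal.isMaximal 𝒪).ne_top h4

/-- Any `𝒪`-algebra map into a local `𝒪`-algebra with residue field generated by `𝒪` is local. -/
lemma isLocalHom_of_residue_surjective {B : Type} [CommRing B] [IsLocalRing B] [Algebra 𝒪 B]
    (hB : Function.Surjective (residue B ∘ algebraMap 𝒪 B)) (φ : A →ₐ[𝒪] B) :
    IsLocalHom (φ : A →+* B) := by
  refine ⟨fun a ha => ?_⟩
  by_contra hna
  have ham : a ∈ maximalIdeal A := (mem_maximalIdeal _).mpr hna
  obtain ⟨c, hc⟩ := exists_sub_mem hB (φ a)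
  have hφa : IsUnit (φ a) := ha
  -- `c` is a unit of `𝒪`
  have hcu : IsUnit c := by
    by_contra hc'
    have : algebraMap 𝒪 B c ∈ maximalIdeal B :=
      algebraMap_mem_of_mem hB ((mem_maximalIdeal _).mpr hc')
    have h2 : φ a ∈ maximalIdeal B := by
      have := Ideal.add_mem _ hc this
      simpa using this
    exact ((mem_maximalIdeal _).mp h2) hφa
  have hu : IsUnit (a - algebraMap 𝒪 A c) := by
    by_contra h'
    have h1 : a - algebraMap 𝒪 A c ∈ maximalIdeal A := (mem_maximalIdeal _).mpr h'
    have h2 : algebraMap 𝒪 A c ∈ maximalIdeal A := by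
      have := Ideal.sub_mem _ ham h1
      simpa using this
    exact ((mem_maximalIdeal _).mp h2) (hcu.map _)
  have hu' : IsUnit (φ (a - algebraMap 𝒪 A c)) := hu.map φ
  rw [map_sub, AlgHom.commutes] at hu'
  exact ((mem_maximalIdeal _).mp hc) hu'

/-- Images of powers of the maximal ideal under local homomorphisms. -/
lemma map_mem_maximalIdeal_pow {B : Type} [CommRing B] [IsLocalRing B] (φ : A →+* B)
    [IsLocalHom φ] {n : ℕ} {z : A} (hz : z ∈ maximalIdeal A ^ n) : φ z ∈ maximalIdeal B ^ n := by
  have h1 : (maximalIdeal A).map φ ≤ maximalIdeal B := by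
    rw [Ideal.map_le_iff_le_comap]
    intro a ha
    exact map_nonunit φ a ha
  have h2 : (maximalIdeal A ^ n).map φ ≤ maximalIdeal B ^ n := by
    rw [Ideal.map_pow]
    exact Ideal.pow_right_mono h1 n
  exact h2 (Ideal.mem_map_of_mem φ hz)

end Basic

section Test

variable {𝒪 : Type} [CommRing 𝒪] [IsLocalRing 𝒪]
variable {A : Type} [CommRing A] [IsLocalRing A] [Algebra 𝒪 A]

/-- The maximal ideal of an Artinian test algebra is nilpotent. -/
lemma testAlg_exists_pow_eq_bot (h : GaloisRep.IsArtinianTestAlgebra 𝒪 A) :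
    ∃ n, maximalIdeal A ^ n = ⊥ := by
  haveI := h.isArtinian
  obtain ⟨n, hn⟩ := IsArtinianRing.isNilpotent_jacobson_bot (R := A)
  rw [jacobson_eq_maximalIdeal _ bot_ne_top] at hn
  exact ⟨n, hn⟩

/-- The residue field of an Artinian test algebra is finite when that of `𝒪` is. -/
lemma testAlg_finite_residueField [Finite (ResidueField 𝒪)]
    (h : Function.Surjective (residue A ∘ algebraMap 𝒪 A)) : Finite (ResidueField A) := by
  have hsurj : Function.Surjective (fun x : ResidueField 𝒪 =>
      Quotient.liftOn' x (fun c => residue A (algebraMap 𝒪 A c)) (fun a b hab => by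
        have hab' : a - b ∈ maximalIdeal 𝒪 := by
          have := (Submodule.quotientRel_def _).mp hab
          exact this
        have := algebraMap_mem_of_mem h hab'
        rw [map_sub] at this
        have h0 := (residue_eq_zero_iff _).mpr this
        rw [map_sub, sub_eq_zero] at h0
        exact h0)) := by
    intro y
    obtain ⟨c, hc⟩ := h y
    exact ⟨Ideal.Quotient.mk _ c, hc⟩
  exact Finite.of_surjective _ hsurj

/-- Artinian test algebras over a ring with finite residue field are finite. -/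
lemma testAlg_finite [Finite (ResidueField 𝒪)] (h : GaloisRep.IsArtinianTestAlgebra 𝒪 A) :
    Finite A := by
  haveI := h.isArtinian
  haveI : Finite (ResidueField A) := testAlg_finite_residueField h.residue_surjective
  obtain ⟨n, hn⟩ := testAlg_exists_pow_eq_bot h
  have : Finite (A ⧸ (⊥ : Ideal A)) := (finite_quotient_iff (R := A)).mpr ⟨n, hn.le⟩
  exact Finite.of_equiv _ (RingEquiv.quotientBot A).toEquiv

end Test

section Resk

variable {𝒪 : Type} [CommRing 𝒪] [IsLocalRing 𝒪]
variable {A : Type} [CommRing A] [IsLocalRing A] [Algebra 𝒪 A]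

/-- The residue field of `𝒪` is an Artinian test algebra. -/
lemma testAlg_residueField : GaloisRep.IsArtinianTestAlgebra 𝒪 (ResidueField 𝒪) where
  isLocalHom := by
    refine ⟨fun c hc => ?_⟩
    by_contra h
    have h0 : residue 𝒪 c = 0 := (residue_eq_zero_iff c).mpr ((mem_maximalIdeal _).mpr h)
    have : algebraMap 𝒪 (ResidueField 𝒪) c = 0 := h0
    rw [this] at hc
    exact not_isUnit_zero hc
  residue_surjective := by
    intro y
    obtain ⟨y', hy'⟩ := residue_surjective (R := ResidueField 𝒪) y
    obtain ⟨c, hc⟩ := residue_surjective (R := 𝒪) y'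
    refine ⟨c, ?_⟩
    simp only [Function.comp_apply]
    rw [← hy', ← hc]
    rfl
  isArtinian := inferInstance

/-- In an Artinian test algebra, elements of the maximal ideal are nilpotent. -/
lemma testAlg_isNilpotent (h : GaloisRep.IsArtinianTestAlgebra 𝒪 A) {u : A}
    (hu : u ∈ maximalIdeal A) : IsNilpotent u := by
  obtain ⟨n, hn⟩ := testAlg_exists_pow_eq_bot h
  refine ⟨n, ?_⟩
  have : u ^ n ∈ maximalIdeal A ^ n := Ideal.pow_mem_pow hu n
  rw [hn] at this
  exact this

/-- Two `𝒪`-algebra maps from an Artinian test algebra to a field-like reduced target in which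
nilpotents vanish agree.  We only need the target `ResidueField 𝒪`. -/
lemma testAlg_algHom_residueField_ext (h : GaloisRep.IsArtinianTestAlgebra 𝒪 A)
    (φ ψ : A →ₐ[𝒪] ResidueField 𝒪) : φ = ψ := by
  ext a
  obtain ⟨c, hc⟩ := exists_sub_mem h.residue_surjective a
  have h1 : φ (a - algebraMap 𝒪 A c) = 0 := (testAlg_isNilpotent h hc).map φ |>.eq_zero
  have h2 : ψ (a - algebraMap 𝒪 A c) = 0 := (testAlg_isNilpotent h hc).map ψ |>.eq_zero
  rw [map_sub, AlgHom.commutes, sub_eq_zero] at h1 h2
  rw [h1, h2]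

/-- An `𝒪`-algebra map from a local `𝒪`-algebra with residue field generated by `𝒪`
to `ResidueField 𝒪`.  -/
lemma exists_resk (h : Function.Surjective (residue A ∘ algebraMap 𝒪 A)) :
    ∃ ε : A →ₐ[𝒪] ResidueField 𝒪, ∀ a, ε a = 0 ↔ a ∈ maximalIdeal A := by
  -- the map `ResidueField 𝒪 → ResidueField A`
  haveI : IsLocalHom (algebraMap 𝒪 A) := by
    refine ⟨fun c hc => ?_⟩
    by_contra hc'
    exact ((mem_maximalIdeal _).mp (algebraMap_mem_of_mem h ((mem_maximalIdeal _).mpr hc'))) hc
  let f : ResidueField 𝒪 →+* ResidueField A := ResidueField.map (algebraMap 𝒪 A)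
  have hf : Function.Bijective f := by
    refine ⟨f.injective, fun y => ?_⟩
    obtain ⟨c, hc⟩ := h y
    exact ⟨residue 𝒪 c, by simpa [f] using hc⟩
  let e : ResidueField 𝒪 ≃+* ResidueField A := RingEquiv.ofBijective f hf
  refine ⟨{ toRingHom := (e.symm : ResidueField A →+* ResidueField 𝒪).comp (residue A)
            commutes' := fun c => ?_ }, fun a => ?_⟩
  · show e.symm (residue A (algebraMap 𝒪 A c)) = algebraMap 𝒪 (ResidueField 𝒪) c
    rw [RingEquiv.symm_apply_eq]
    show residue A (algebraMap 𝒪 A c) = f (residue 𝒪 c)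
    simp [f]
  · show e.symm (residue A a) = 0 ↔ _
    rw [map_eq_zero_iff _ e.symm.injective, residue_eq_zero_iff]

end Resk

section Local

variable {𝒪 : Type} [CommRing 𝒪] [IsLocalRing 𝒪]

/-- In a finite commutative ring, a unit lying in a subalgebra is a unit of the subalgebra. -/
lemma isUnit_subalgebra_of_isUnit {E : Type} [CommRing E] [Algebra 𝒪 E] [Finite E]
    (S : Subalgebra 𝒪 E) (s : S) (hs : IsUnit (s : E)) : IsUnit s := by
  have hinj : Function.Injective (fun t : S => s * t) := by
    intro t t' htt'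
    have : (s : E) * t = (s : E) * t' := by
      have := congrArg (Subtype.val) htt'
      simpa using this
    exact Subtype.ext (hs.mul_left_cancel this)
  obtain ⟨t, ht⟩ := Finite.surjective_of_injective hinj 1
  exact IsUnit.of_mul_eq_one t ht

/-- Criterion: a finite commutative `𝒪`-algebra with an algebra map `ε` to `ResidueField 𝒪`
such that everything outside `ker ε` is a unit is local, and is an Artinian test algebra. -/
lemma isLocalRing_of_eps {S : Type} [CommRing S] [Algebra 𝒪 S]
    (ε : S →ₐ[𝒪] ResidueField 𝒪) (hε : ∀ s, ε s ≠ 0 → IsUnit s) : IsLocalRing S := by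
  haveI : Nontrivial S := by
    refine ⟨⟨0, 1, fun h01 => ?_⟩⟩
    have := congrArg ε h01
    simp at this
  refine IsLocalRing.of_isUnit_or_isUnit_one_sub_self fun s => ?_
  by_cases h : ε s = 0
  · right
    apply hε
    rw [map_sub, map_one, h, sub_zero]
    exact one_ne_zero
  · left
    exact hε s h

lemma mem_maximalIdeal_iff_of_eps {S : Type} [CommRing S] [IsLocalRing S] [Algebra 𝒪 S]
    (ε : S →ₐ[𝒪] ResidueField 𝒪) (hε : ∀ s, ε s ≠ 0 → IsUnit s) (s : S) :
    s ∈ maximalIdeal S ↔ ε s = 0 := by
  constructor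
  · intro hs
    by_contra h
    exact ((mem_maximalIdeal _).mp hs) (hε s h)
  · intro hs
    rw [mem_maximalIdeal]
    intro hu
    have := hu.map ε
    rw [hs] at this
    exact not_isUnit_zero this

lemma testAlg_of_eps {S : Type} [CommRing S] [IsLocalRing S] [Algebra 𝒪 S] [Finite S]
    (ε : S →ₐ[𝒪] ResidueField 𝒪) (hε : ∀ s, ε s ≠ 0 → IsUnit s) :
    GaloisRep.IsArtinianTestAlgebra 𝒪 S where
  isLocalHom := by
    refine ⟨fun c hc => ?_⟩
    have h1 : IsUnit (ε (algebraMap 𝒪 S c)) := hc.map ε
    rw [AlgHom.commutes] at h1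
    by_contra hcn
    have h0 : residue 𝒪 c = 0 := (residue_eq_zero_iff c).mpr ((mem_maximalIdeal _).mpr hcn)
    have : algebraMap 𝒪 (ResidueField 𝒪) c = 0 := h0
    rw [this] at h1
    exact not_isUnit_zero h1
  residue_surjective := by
    intro y
    obtain ⟨s, rfl⟩ := residue_surjective (R := S) y
    obtain ⟨c, hc⟩ := residue_surjective (R := 𝒪) (ε s)
    refine ⟨c, ?_⟩
    simp only [Function.comp_apply]
    have : s - algebraMap 𝒪 S c ∈ maximalIdeal S := by
      rw [mem_maximalIdeal_iff_of_eps ε hε, map_sub, AlgHom.commutes, sub_eq_zero]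
      exact hc.symm
    have h0 := (residue_eq_zero_iff _).mpr this
    rw [map_sub, sub_eq_zero] at h0
    exact h0.symm
  isArtinian := inferInstance

end Local

section Generation

variable {𝒪 : Type} [CommRing 𝒪] [IsLocalRing 𝒪]
variable {A : Type} [CommRing A] [IsLocalRing A] [Algebra 𝒪 A]

/-- Nakayama-type generation criterion for Artinian test algebras: a subalgebra hitting the
maximal ideal modulo its square is everything. -/
lemma testAlg_subalgebra_eq_top (h : GaloisRep.IsArtinianTestAlgebra 𝒪 A) (S : Subalgebra 𝒪 A)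
    (hS : ∀ u ∈ maximalIdeal A, ∃ s ∈ S, u - s ∈ maximalIdeal A ^ 2) : S = ⊤ := by
  -- step: elements of `m^j` are in `S` modulo `m^(j+1)`
  have key : ∀ j : ℕ, ∀ w ∈ maximalIdeal A ^ j, ∃ s ∈ S, w - s ∈ maximalIdeal A ^ (j + 1) := by
    intro j
    induction j with
    | zero =>
      intro w _
      obtain ⟨c, hc⟩ := exists_sub_mem h.residue_surjective w
      exact ⟨algebraMap 𝒪 A c, S.algebraMap_mem c, by simpa using hc⟩
    | succ j ih =>
      intro w hw
      rw [pow_succ] at hw
      refine Submodule.mul_induction_on hw ?_ ?_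
      · intro w' hw' u hu
        obtain ⟨s', hs', he'⟩ := ih w' hw'
        obtain ⟨su, hsu, heu⟩ := hS u hu
        refine ⟨s' * su, S.mul_mem hs' hsu, ?_⟩
        have hs'm : s' ∈ maximalIdeal A ^ j := by
          have h1 : w' - s' ∈ maximalIdeal A ^ j := Ideal.pow_le_pow_right (Nat.le_succ j) he'
          have := Ideal.sub_mem _ hw' h1
          simpa using this
        have e : w' * u - s' * su = (w' - s') * u + s' * (u - su) := by ring
        rw [e]
        refine Ideal.add_mem _ ?_ ?_
        · have : (w' - s') * u ∈ maximalIdeal A ^ (j + 1) * maximalIdeal A :=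
            Ideal.mul_mem_mul he' hu
          rw [← pow_succ] at this
          exact this
        · have : s' * (u - su) ∈ maximalIdeal A ^ j * maximalIdeal A ^ 2 :=
            Ideal.mul_mem_mul hs'm heu
          rw [← pow_add] at this
          exact this
      · intro x y ⟨sx, hsx, hx⟩ ⟨sy, hsy, hy⟩
        refine ⟨sx + sy, S.add_mem hsx hsy, ?_⟩
        have e : x + y - (sx + sy) = (x - sx) + (y - sy) := by ring
        rw [e]
        exact Ideal.add_mem _ hx hy
  have key2 : ∀ j : ℕ, ∀ a : A, ∃ s ∈ S, a - s ∈ maximalIdeal A ^ j := by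
    intro j
    induction j with
    | zero => intro a; exact ⟨0, S.zero_mem, by simp⟩
    | succ j ih =>
      intro a
      obtain ⟨s, hs, he⟩ := ih a
      obtain ⟨s', hs', he'⟩ := key j (a - s) he
      exact ⟨s + s', S.add_mem hs hs', by
        have e : a - (s + s') = a - s - s' := by ring
        rw [e]; exact he'⟩
  obtain ⟨n, hn⟩ := testAlg_exists_pow_eq_bot h
  rw [eq_top_iff]
  intro a _
  obtain ⟨s, hs, he⟩ := key2 n a
  rw [hn, Ideal.mem_bot, sub_eq_zero] at he
  rw [he]; exact hs

end Generation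

section Quotient

variable {𝒪 : Type} [CommRing 𝒪] [IsLocalRing 𝒪]
variable {A : Type} [CommRing A] [IsLocalRing A] [Algebra 𝒪 A]

lemma isLocalRing_quotient {I : Ideal A} (hI : I ≠ ⊤) : IsLocalRing (A ⧸ I) := by
  haveI : Nontrivial (A ⧸ I) := Ideal.Quotient.nontrivial_iff.mpr hI
  exact IsLocalRing.of_surjective' (Ideal.Quotient.mk I) Ideal.Quotient.mk_surjective

lemma maximalIdeal_quotient_eq_map (I : Ideal A) [IsLocalRing (A ⧸ I)] :
    maximalIdeal (A ⧸ I) = (maximalIdeal A).map (Ideal.Quotient.mk I) := by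
  haveI := IsLocalHom.of_surjective (Ideal.Quotient.mk I) Ideal.Quotient.mk_surjective
  ext x
  obtain ⟨a, rfl⟩ := Ideal.Quotient.mk_surjective x
  constructor
  · intro hx
    apply Ideal.mem_map_of_mem
    rw [mem_maximalIdeal, mem_nonunits_iff] at hx ⊢
    intro ha
    exact hx (ha.map _)
  · intro hx
    have hle : (maximalIdeal A).map (Ideal.Quotient.mk I) ≤ maximalIdeal (A ⧸ I) := by
      rw [Ideal.map_le_iff_le_comap]
      intro a ha
      exact map_nonunit (Ideal.Quotient.mk I) a ha
    exact hle hx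

/-- Quotients of noetherian local `𝒪`-algebras (with residue field generated by `𝒪`) by ideals
containing a power of the maximal ideal are Artinian test algebras. -/
lemma testAlg_quotient [IsNoetherianRing A] (hloc : IsLocalHom (algebraMap 𝒪 A))
    (hres : Function.Surjective (residue A ∘ algebraMap 𝒪 A)) (I : Ideal A)
    [IsLocalRing (A ⧸ I)] {n : ℕ} (hn : maximalIdeal A ^ n ≤ I) :
    GaloisRep.IsArtinianTestAlgebra 𝒪 (A ⧸ I) where
  isLocalHom := by
    haveI := IsLocalHom.of_surjective (Ideal.Quotient.mk I) Ideal.Quotient.mk_surjective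
    refine ⟨fun c hc => ?_⟩
    have h1 : IsUnit (Ideal.Quotient.mk I (algebraMap 𝒪 A c)) := hc
    have h2 : IsUnit (algebraMap 𝒪 A c) := isUnit_of_map_unit (Ideal.Quotient.mk I) _ h1
    exact hloc.map_nonunit c h2
  residue_surjective := by
    intro y
    obtain ⟨x, rfl⟩ := residue_surjective (R := A ⧸ I) y
    obtain ⟨a, rfl⟩ := Ideal.Quotient.mk_surjective x
    obtain ⟨c, hc⟩ := exists_sub_mem hres a
    refine ⟨c, ?_⟩
    simp only [Function.comp_apply]
    have h1 : Ideal.Quotient.mk I (a - algebraMap 𝒪 A c) ∈ maximalIdeal (A ⧸ I) := by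
      rw [maximalIdeal_quotient_eq_map]
      exact Ideal.mem_map_of_mem _ hc
    have h0 := (residue_eq_zero_iff _).mpr h1
    rw [map_sub, map_sub, sub_eq_zero] at h0
    exact h0.symm
  isArtinian := by
    rw [isArtinianRing_iff_isNilpotent_maximalIdeal]
    refine ⟨n, ?_⟩
    rw [maximalIdeal_quotient_eq_map, ← Ideal.map_pow, Ideal.zero_eq_bot,
      Ideal.map_eq_bot_iff_le_ker, Ideal.mk_ker]
    exact hn

lemma maximalIdeal_pow_quotient_eq_bot (I : Ideal A) [IsLocalRing (A ⧸ I)] {n : ℕ}
    (hn : maximalIdeal A ^ n ≤ I) : maximalIdeal (A ⧸ I) ^ n = ⊥ := by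
  rw [maximalIdeal_quotient_eq_map, ← Ideal.map_pow, Ideal.map_eq_bot_iff_le_ker, Ideal.mk_ker]
  exact hn

end Quotient

section DualNumber

variable (𝒪 : Type) [CommRing 𝒪] [IsLocalRing 𝒪]

/-- The `𝒪`-algebra structure on the dual numbers over the residue field which is used in
`GaloisRep.TangentFinite` (it is *not* registered as an instance). -/
@[reducible] noncomputable def dualNumberAlgebra : Algebra 𝒪 (DualNumber (ResidueField 𝒪)) :=
  ((algebraMap (ResidueField 𝒪) (DualNumber (ResidueField 𝒪))).comp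
    (algebraMap 𝒪 (ResidueField 𝒪))).toAlgebra

/-- The first projection `k[ε] → k` as an `𝒪`-algebra map for `dualNumberAlgebra`. -/
noncomputable def dualNumberFst :
    letI := dualNumberAlgebra 𝒪
    DualNumber (ResidueField 𝒪) →ₐ[𝒪] ResidueField 𝒪 :=
  letI := dualNumberAlgebra 𝒪
  { toRingHom := (TrivSqZeroExt.fstHom (ResidueField 𝒪) (ResidueField 𝒪) (ResidueField 𝒪) :
      DualNumber (ResidueField 𝒪) →+* ResidueField 𝒪)
    commutes' := fun _ => rfl }

lemma dualNumberFst_apply (x : DualNumber (ResidueField 𝒪)) :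
    letI := dualNumberAlgebra 𝒪
    dualNumberFst 𝒪 x = TrivSqZeroExt.fst x := rfl

instance finite_dualNumber [Finite (ResidueField 𝒪)] : Finite (DualNumber (ResidueField 𝒪)) :=
  inferInstanceAs (Finite (ResidueField 𝒪 × ResidueField 𝒪))

/-- The dual numbers over the residue field (with `dualNumberAlgebra`) form an Artinian test
algebra. -/
lemma testAlg_dualNumber [Finite (ResidueField 𝒪)] :
    @GaloisRep.IsArtinianTestAlgebra 𝒪 _ (DualNumber (ResidueField 𝒪)) _ _
      (dualNumberAlgebra 𝒪) := by
  letI := dualNumberAlgebra 𝒪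
  refine testAlg_of_eps (dualNumberFst 𝒪) fun x hx => ?_
  rw [TrivSqZeroExt.isUnit_iff_isUnit_fst]
  exact isUnit_iff_ne_zero.mpr hx

end DualNumber

end Fermat.Agent.S53.H96
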