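import Mathlib
import Fermat.Prelude.Def_GaloisRep_DeformationRingData
import Fermat.Prelude.Def_GaloisRep_DeformationCondition

set_option autoImplicit false

namespace Fermat.Agent.S53.H96

open IsLocalRing

/-- Abstract pro-representability: a subfunctor `F A ⊆ (X → A)` of a product functor on local
`𝒪`-algebras which is stable under push-forward, satisfies gluing/descent along jointly injective
pairs of maps, has exactly one point over the residue field, finitely many points over the dual
numbers and is continuous, is represented by a complete noetherian local `𝒪`-algebra. -/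
def AbstractStatement (𝒪 : Type) [CommRing 𝒪] [IsDomain 𝒪] [IsDiscreteValuationRing 𝒪]
    [IsAdicComplete (maximalIdeal 𝒪) 𝒪] [Finite (ResidueField 𝒪)] : Prop :=
  ∀ (X : Type)
    (F : ∀ (A : Type) [CommRing A] [IsLocalRing A] [Algebra 𝒪 A], Set (X → A)),
    -- push-forward along algebra maps of Artinian test algebras
    (∀ (A B : Type) [CommRing A] [IsLocalRing A] [Algebra 𝒪 A]
        [CommRing B] [IsLocalRing B] [Algebra 𝒪 B],
        GaloisRep.IsArtinianTestAlgebra 𝒪 A → GaloisRep.IsArtinianTestAlgebra 𝒪 B →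
        ∀ (φ : A →ₐ[𝒪] B), ∀ x ∈ F A, (fun i => φ (x i)) ∈ F B) →
    -- gluing + descent: jointly injective pair of maps
    (∀ (A B C : Type) [CommRing A] [IsLocalRing A] [Algebra 𝒪 A]
        [CommRing B] [IsLocalRing B] [Algebra 𝒪 B] [CommRing C] [IsLocalRing C] [Algebra 𝒪 C],
        GaloisRep.IsArtinianTestAlgebra 𝒪 A → GaloisRep.IsArtinianTestAlgebra 𝒪 B →
        GaloisRep.IsArtinianTestAlgebra 𝒪 C →
        ∀ (pA : C →ₐ[𝒪] A) (pB : C →ₐ[𝒪] B), Function.Injective (fun c => (pA c, pB c)) →
        ∀ z : X → C, (fun i => pA (z i)) ∈ F A → (fun i => pB (z i)) ∈ F B → z ∈ F C) →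
    -- exactly one point over the residue field
    (∃ x₀, F (ResidueField 𝒪) = {x₀}) →
    -- finitely many points over the dual numbers (with the algebra structure of `TangentFinite`)
    (@F (DualNumber (ResidueField 𝒪)) _ _
        ((algebraMap (ResidueField 𝒪) (DualNumber (ResidueField 𝒪))).comp
          (algebraMap 𝒪 (ResidueField 𝒪))).toAlgebra).Finite →
    -- continuity
    (∀ (A : Type) [CommRing A] [IsLocalRing A] [IsNoetherianRing A]
        [IsAdicComplete (maximalIdeal A) A] [Algebra 𝒪 A],
        IsLocalHom (algebraMap 𝒪 A) → Function.Surjective (residue A ∘ algebraMap 𝒪 A) →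
        ∀ x : X → A, x ∈ F A ↔
          ∀ (B : Type) [CommRing B] [IsLocalRing B] [Algebra 𝒪 B],
            GaloisRep.IsArtinianTestAlgebra 𝒪 B → ∀ q : A →ₐ[𝒪] B, Function.Surjective q →
              (fun i => q (x i)) ∈ F B) →
    ∃ (R : Type) (_ : CommRing R) (_ : IsLocalRing R) (_ : IsNoetherianRing R)
      (_ : IsAdicComplete (maximalIdeal R) R) (_ : Algebra 𝒪 R),
      IsLocalHom (algebraMap 𝒪 R) ∧ Function.Surjective (residue R ∘ algebraMap 𝒪 R) ∧
      ∃ xu ∈ F R,
        ∀ (A : Type) [CommRing A] [IsLocalRing A] [IsNoetherianRing A]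
          [IsAdicComplete (maximalIdeal A) A] [Algebra 𝒪 A],
          IsLocalHom (algebraMap 𝒪 A) → Function.Surjective (residue A ∘ algebraMap 𝒪 A) →
          ∀ x ∈ F A, ∃! φ : R →ₐ[𝒪] A, (fun i => φ (xu i)) = x

end Fermat.Agent.S53.H96
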