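import Mathlib
import Fermat.Agent.S53.H96.TestAlg

set_option autoImplicit false
set_option linter.unusedSectionVars false
set_option linter.style.haveILetI false
set_option linter.unnecessarySimpa false

namespace Fermat.Agent.S53.H96

open IsLocalRing

section Factor

variable {𝒪 : Type} [CommRing 𝒪]

/-- Factor an algebra map through a surjective algebra map with smaller kernel. -/
lemma exists_algHom_comp_eq {R A B : Type} [CommRing R] [CommRing A] [CommRing B]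
    [Algebra 𝒪 R] [Algebra 𝒪 A] [Algebra 𝒪 B] (p : R →ₐ[𝒪] A) (hp : Function.Surjective p)
    (q : R →ₐ[𝒪] B) (hker : RingHom.ker (p : R →+* A) ≤ RingHom.ker (q : R →+* B)) :
    ∃ q' : A →ₐ[𝒪] B, q'.comp p = q := by
  let g : {g : R →+* B // RingHom.ker (p : R →+* A) ≤ RingHom.ker g} := ⟨q, hker⟩
  let q0 : A →+* B := (p : R →+* A).liftOfRightInverse (Function.surjInv hp)
    (Function.rightInverse_surjInv hp) g
  have hq0 : ∀ r, q0 (p r) = q r := fun r =>
    RingHom.liftOfRightInverse_comp_apply (p : R →+* A) _ (Function.rightInverse_surjInv hp) g r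
  refine ⟨{ toRingHom := q0, commutes' := fun c => ?_ }, ?_⟩
  · show q0 (algebraMap 𝒪 A c) = _
    rw [← p.commutes c, hq0]
    exact q.commutes c
  · ext r
    exact hq0 r

end Factor

section MinPair

variable {𝒪 : Type} [CommRing 𝒪] [IsLocalRing 𝒪]
variable {X : Type} (F : ∀ (A : Type) [CommRing A] [IsLocalRing A] [Algebra 𝒪 A], Set (X → A))

/-- Push-forward hypothesis of the abstract statement. -/
def Push : Prop :=
  ∀ (A B : Type) [CommRing A] [IsLocalRing A] [Algebra 𝒪 A]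
    [CommRing B] [IsLocalRing B] [Algebra 𝒪 B],
    GaloisRep.IsArtinianTestAlgebra 𝒪 A → GaloisRep.IsArtinianTestAlgebra 𝒪 B →
    ∀ (φ : A →ₐ[𝒪] B), ∀ x ∈ F A, (fun i => φ (x i)) ∈ F B

/-- Gluing hypothesis of the abstract statement. -/
def Glue : Prop :=
  ∀ (A B C : Type) [CommRing A] [IsLocalRing A] [Algebra 𝒪 A]
    [CommRing B] [IsLocalRing B] [Algebra 𝒪 B] [CommRing C] [IsLocalRing C] [Algebra 𝒪 C],
    GaloisRep.IsArtinianTestAlgebra 𝒪 A → GaloisRep.IsArtinianTestAlgebra 𝒪 B →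
    GaloisRep.IsArtinianTestAlgebra 𝒪 C →
    ∀ (pA : C →ₐ[𝒪] A) (pB : C →ₐ[𝒪] B), Function.Injective (fun c => (pA c, pB c)) →
    ∀ z : X → C, (fun i => pA (z i)) ∈ F A → (fun i => pB (z i)) ∈ F B → z ∈ F C

/-- `(A, x)` is a minimal pair of level `n`: `A` is an Artinian test algebra with `m^n = 0`,
`x ∈ F A`, and the entries of `x` generate `A` as an `𝒪`-algebra. -/
structure IsMinPair (n : ℕ) (A : Type) [CommRing A] [IsLocalRing A] [Algebra 𝒪 A]
    (x : X → A) : Prop where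
  test : GaloisRep.IsArtinianTestAlgebra 𝒪 A
  level : maximalIdeal A ^ n = ⊥
  mem : x ∈ F A
  gen : Algebra.adjoin 𝒪 (Set.range x) = ⊤

/-- `(A, x)` is universal among pairs of level `n`. -/
def IsUniversalAt (n : ℕ) (A : Type) [CommRing A] [IsLocalRing A] [Algebra 𝒪 A]
    (x : X → A) : Prop :=
  ∀ (B : Type) [CommRing B] [IsLocalRing B] [Algebra 𝒪 B],
    GaloisRep.IsArtinianTestAlgebra 𝒪 B → maximalIdeal B ^ n = ⊥ →
    ∀ y ∈ F B, ∃ φ : A →ₐ[𝒪] B, (fun i => φ (x i)) = y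

end MinPair

section PairAdjoin

variable {𝒪 : Type} [CommRing 𝒪] [IsLocalRing 𝒪] [Finite (ResidueField 𝒪)]
variable {A B : Type} [CommRing A] [IsLocalRing A] [Algebra 𝒪 A]
  [CommRing B] [IsLocalRing B] [Algebra 𝒪 B]
variable {X : Type}

/-- The subalgebra of `A × B` generated by a family of pairs. -/
def pairAdjoin (𝒪 : Type) [CommRing 𝒪] {A B : Type} [CommRing A] [Algebra 𝒪 A] [CommRing B]
    [Algebra 𝒪 B] {X : Type} (x : X → A) (y : X → B) : Subalgebra 𝒪 (A × B) :=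
  Algebra.adjoin 𝒪 (Set.range fun i => (x i, y i))

/-- The tautological family in `pairAdjoin`. -/
def pairFamily (𝒪 : Type) [CommRing 𝒪] {A B : Type} [CommRing A] [Algebra 𝒪 A] [CommRing B]
    [Algebra 𝒪 B] {X : Type} (x : X → A) (y : X → B) : X → pairAdjoin 𝒪 x y :=
  fun i => ⟨(x i, y i), Algebra.subset_adjoin ⟨i, rfl⟩⟩

lemma pairAdjoin_gen (x : X → A) (y : X → B) :
    Algebra.adjoin 𝒪 (Set.range (pairFamily 𝒪 x y)) = ⊤ := by
  have h := Algebra.adjoin_adjoin_coe_preimage (R := 𝒪) (s := Set.range fun i => (x i, y i))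
  have : ((↑) : pairAdjoin 𝒪 x y → A × B) ⁻¹' (Set.range fun i => (x i, y i)) =
      Set.range (pairFamily 𝒪 x y) := by
    ext ⟨c, hc⟩
    constructor
    · rintro ⟨i, hi⟩
      exact ⟨i, Subtype.ext hi⟩
    · rintro ⟨i, hi⟩
      exact ⟨i, congrArg Subtype.val hi⟩
  rw [← this]
  exact h

/-- The two projections. -/
def pairFst (𝒪 : Type) [CommRing 𝒪] {A B : Type} [CommRing A] [Algebra 𝒪 A] [CommRing B]
    [Algebra 𝒪 B] {X : Type} (x : X → A) (y : X → B) : pairAdjoin 𝒪 x y →ₐ[𝒪] A :=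
  (AlgHom.fst 𝒪 A B).comp (pairAdjoin 𝒪 x y).val

def pairSnd (𝒪 : Type) [CommRing 𝒪] {A B : Type} [CommRing A] [Algebra 𝒪 A] [CommRing B]
    [Algebra 𝒪 B] {X : Type} (x : X → A) (y : X → B) : pairAdjoin 𝒪 x y →ₐ[𝒪] B :=
  (AlgHom.snd 𝒪 A B).comp (pairAdjoin 𝒪 x y).val

lemma pair_injective (x : X → A) (y : X → B) :
    Function.Injective (fun c : pairAdjoin 𝒪 x y => (pairFst 𝒪 x y c, pairSnd 𝒪 x y c)) := by
  intro c c' h
  exact Subtype.ext h

/-- Elements of `pairAdjoin` have the same image in the residue field through both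
projections. -/
lemma pairAdjoin_eps_eq (εA : A →ₐ[𝒪] ResidueField 𝒪) (εB : B →ₐ[𝒪] ResidueField 𝒪)
    (x : X → A) (y : X → B) (hxy : ∀ i, εA (x i) = εB (y i)) (c : pairAdjoin 𝒪 x y) :
    εA (pairFst 𝒪 x y c) = εB (pairSnd 𝒪 x y c) := by
  have hle : pairAdjoin 𝒪 x y ≤
      AlgHom.equalizer (εA.comp (AlgHom.fst 𝒪 A B)) (εB.comp (AlgHom.snd 𝒪 A B)) := by
    apply Algebra.adjoin_le
    rintro _ ⟨i, rfl⟩
    exact hxy i
  exact hle c.2

variable (hA : GaloisRep.IsArtinianTestAlgebra 𝒪 A) (hB : GaloisRep.IsArtinianTestAlgebra 𝒪 B)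

include hA hB in
lemma pairAdjoin_finite (x : X → A) (y : X → B) : Finite (pairAdjoin 𝒪 x y) := by
  haveI := testAlg_finite hA
  haveI := testAlg_finite hB
  exact Finite.of_injective (fun c : pairAdjoin 𝒪 x y => (c : A × B)) Subtype.val_injective

include hA hB in
lemma pairAdjoin_isUnit (εA : A →ₐ[𝒪] ResidueField 𝒪) (hεA : ∀ a, εA a = 0 ↔ a ∈ maximalIdeal A)
    (εB : B →ₐ[𝒪] ResidueField 𝒪) (hεB : ∀ b, εB b = 0 ↔ b ∈ maximalIdeal B)
    (x : X → A) (y : X → B) (hxy : ∀ i, εA (x i) = εB (y i)) (c : pairAdjoin 𝒪 x y)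
    (hc : (εA.comp (pairFst 𝒪 x y)) c ≠ 0) : IsUnit c := by
  haveI := testAlg_finite hA
  haveI := testAlg_finite hB
  apply isUnit_subalgebra_of_isUnit
  rw [Prod.isUnit_iff]
  have h1 : εA (pairFst 𝒪 x y c) ≠ 0 := hc
  have h2 : εB (pairSnd 𝒪 x y c) ≠ 0 := by
    rw [← pairAdjoin_eps_eq εA εB x y hxy c]; exact h1
  constructor
  · by_contra hu
    exact h1 ((hεA _).mpr ((mem_maximalIdeal _).mpr hu))
  · by_contra hu
    exact h2 ((hεB _).mpr ((mem_maximalIdeal _).mpr hu))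

include hA hB in
/-- `pairAdjoin` is a local ring as soon as the residues of the two families agree. -/
lemma pairAdjoin_isLocalRing (x : X → A) (y : X → B)
    (hxy : ∀ (εA : A →ₐ[𝒪] ResidueField 𝒪) (εB : B →ₐ[𝒪] ResidueField 𝒪) i,
      εA (x i) = εB (y i)) : IsLocalRing (pairAdjoin 𝒪 x y) := by
  obtain ⟨εA, hεA⟩ := exists_resk (𝒪 := 𝒪) hA.residue_surjective
  obtain ⟨εB, hεB⟩ := exists_resk (𝒪 := 𝒪) hB.residue_surjective
  exact isLocalRing_of_eps (εA.comp (pairFst 𝒪 x y))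
    (pairAdjoin_isUnit hA hB εA hεA εB hεB x y (hxy εA εB))

include hA hB in
lemma pairAdjoin_testAlg (x : X → A) (y : X → B)
    (hxy : ∀ (εA : A →ₐ[𝒪] ResidueField 𝒪) (εB : B →ₐ[𝒪] ResidueField 𝒪) i,
      εA (x i) = εB (y i)) [IsLocalRing (pairAdjoin 𝒪 x y)] :
    GaloisRep.IsArtinianTestAlgebra 𝒪 (pairAdjoin 𝒪 x y) := by
  obtain ⟨εA, hεA⟩ := exists_resk (𝒪 := 𝒪) hA.residue_surjective
  obtain ⟨εB, hεB⟩ := exists_resk (𝒪 := 𝒪) hB.residue_surjective
  haveI := pairAdjoin_finite hA hB x y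
  exact testAlg_of_eps (εA.comp (pairFst 𝒪 x y))
    (pairAdjoin_isUnit hA hB εA hεA εB hεB x y (hxy εA εB))

include hA hB in
lemma pairAdjoin_level (x : X → A) (y : X → B) [IsLocalRing (pairAdjoin 𝒪 x y)] {n : ℕ}
    (hAn : maximalIdeal A ^ n = ⊥) (hBn : maximalIdeal B ^ n = ⊥) :
    maximalIdeal (pairAdjoin 𝒪 x y) ^ n = ⊥ := by
  rw [eq_bot_iff]
  intro z hz
  haveI := isLocalHom_of_residue_surjective hA.residue_surjective (pairFst 𝒪 x y)
  haveI := isLocalHom_of_residue_surjective hB.residue_surjective (pairSnd 𝒪 x y)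
  have h1 := map_mem_maximalIdeal_pow (pairFst 𝒪 x y : pairAdjoin 𝒪 x y →+* A) hz
  have h2 := map_mem_maximalIdeal_pow (pairSnd 𝒪 x y : pairAdjoin 𝒪 x y →+* B) hz
  rw [hAn] at h1
  rw [hBn] at h2
  rw [Ideal.mem_bot]
  apply pair_injective x y
  show (pairFst 𝒪 x y z, pairSnd 𝒪 x y z) = (pairFst 𝒪 x y 0, pairSnd 𝒪 x y 0)
  rw [map_zero, map_zero]
  exact Prod.ext h1 h2

end PairAdjoin

section Universal

variable {𝒪 : Type} [CommRing 𝒪] [IsLocalRing 𝒪] [Finite (ResidueField 𝒪)]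
variable {X : Type} (F : ∀ (A : Type) [CommRing A] [IsLocalRing A] [Algebra 𝒪 A], Set (X → A))

/-- A minimal pair of maximal cardinality (at a given level) is universal at that level. -/
theorem IsMinPair.isUniversalAt_of_card_max (hpush : Push F) (hglue : Glue F)
    (hpt : ∃ x₀, F (ResidueField 𝒪) = {x₀}) {n : ℕ}
    {A : Type} [CommRing A] [IsLocalRing A] [Algebra 𝒪 A] {x : X → A} (h : IsMinPair F n A x)
    (hmax : ∀ (C : Type) [CommRing C] [IsLocalRing C] [Algebra 𝒪 C] (z : X → C),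
      IsMinPair F n C z → Nat.card C ≤ Nat.card A) : IsUniversalAt F n A x := by
  intro B _ _ _ hB hBn y hy
  obtain ⟨x₀, hx₀⟩ := hpt
  -- residues agree
  have hxy : ∀ (εA : A →ₐ[𝒪] ResidueField 𝒪) (εB : B →ₐ[𝒪] ResidueField 𝒪) i,
      εA (x i) = εB (y i) := by
    intro εA εB i
    have h1 : (fun i => εA (x i)) ∈ F (ResidueField 𝒪) :=
      hpush A _ h.test testAlg_residueField εA x h.mem
    have h2 : (fun i => εB (y i)) ∈ F (ResidueField 𝒪) :=
      hpush B _ hB testAlg_residueField εB y hy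
    rw [hx₀] at h1 h2
    have h12 : (fun i => εA (x i)) = fun i => εB (y i) := h1.trans h2.symm
    exact congrFun h12 i
  haveI := pairAdjoin_isLocalRing h.test hB x y hxy
  have hC := pairAdjoin_testAlg h.test hB x y hxy
  have hCn := pairAdjoin_level h.test hB x y h.level hBn
  have hz : pairFamily 𝒪 x y ∈ F (pairAdjoin 𝒪 x y) :=
    hglue A B _ h.test hB hC (pairFst 𝒪 x y) (pairSnd 𝒪 x y) (pair_injective x y) _ h.mem hy
  have hmin : IsMinPair F n (pairAdjoin 𝒪 x y) (pairFamily 𝒪 x y) :=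
    ⟨hC, hCn, hz, pairAdjoin_gen x y⟩
  have hcard := hmax _ _ hmin
  -- `pairFst` is surjective
  have hsurj : Function.Surjective (pairFst 𝒪 x y) := by
    have hr : (pairFst 𝒪 x y).range = ⊤ := by
      rw [eq_top_iff, ← h.gen]
      apply Algebra.adjoin_le
      rintro _ ⟨i, rfl⟩
      exact ⟨pairFamily 𝒪 x y i, rfl⟩
    intro a
    have ha : a ∈ (pairFst 𝒪 x y).range := by rw [hr]; trivial
    exact ha
  haveI := pairAdjoin_finite h.test hB x y
  have hbij : Function.Bijective (pairFst 𝒪 x y) := hsurj.bijective_of_nat_card_le hcard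
  let e : pairAdjoin 𝒪 x y ≃ₐ[𝒪] A := AlgEquiv.ofBijective (pairFst 𝒪 x y) hbij
  refine ⟨(pairSnd 𝒪 x y).comp e.symm.toAlgHom, ?_⟩
  funext i
  show pairSnd 𝒪 x y (e.symm (x i)) = y i
  have he : e.symm (x i) = pairFamily 𝒪 x y i := by
    rw [AlgEquiv.symm_apply_eq]; rfl
  rw [he]; rfl

/-- If the cardinalities of minimal pairs of level `n` are bounded and there is at least one
minimal pair, there is a universal minimal pair of level `n`. -/
theorem exists_universal_minPair (hpush : Push F) (hglue : Glue F)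
    (hpt : ∃ x₀, F (ResidueField 𝒪) = {x₀}) {n : ℕ}
    (hbdd : ∃ N : ℕ, ∀ (C : Type) [CommRing C] [IsLocalRing C] [Algebra 𝒪 C] (z : X → C),
      IsMinPair F n C z → Nat.card C ≤ N)
    (hne : ∃ (A : Type) (_ : CommRing A) (_ : IsLocalRing A) (_ : Algebra 𝒪 A) (x : X → A),
      IsMinPair F n A x) :
    ∃ (A : Type) (_ : CommRing A) (_ : IsLocalRing A) (_ : Algebra 𝒪 A) (x : X → A),
      IsMinPair F n A x ∧ IsUniversalAt F n A x := by
  classical
  let S : Set ℕ := {c | ∃ (A : Type) (_ : CommRing A) (_ : IsLocalRing A) (_ : Algebra 𝒪 A)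
    (x : X → A), IsMinPair F n A x ∧ Nat.card A = c}
  have hSne : S.Nonempty := by
    obtain ⟨A, i1, i2, i3, x, hx⟩ := hne
    exact ⟨Nat.card A, A, i1, i2, i3, x, hx, rfl⟩
  have hSbdd : BddAbove S := by
    obtain ⟨N, hN⟩ := hbdd
    refine ⟨N, ?_⟩
    rintro c ⟨A, i1, i2, i3, x, hx, rfl⟩
    exact hN A x hx
  obtain ⟨A, i1, i2, i3, x, hx, hcard⟩ := Nat.sSup_mem hSne hSbdd
  refine ⟨A, i1, i2, i3, x, hx, ?_⟩
  apply IsMinPair.isUniversalAt_of_card_max F hpush hglue hpt hx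
  intro C _ _ _ z hz
  rw [hcard]
  exact le_csSup hSbdd ⟨C, _, _, _, z, hz, rfl⟩

/-- The residue field with its unique point is a minimal pair of any positive level. -/
theorem isMinPair_residueField {x₀ : X → ResidueField 𝒪} (hx₀ : x₀ ∈ F (ResidueField 𝒪))
    {n : ℕ} (hn : 1 ≤ n) : IsMinPair F n (ResidueField 𝒪) x₀ where
  test := testAlg_residueField
  level := by
    have h1 : maximalIdeal (ResidueField 𝒪) = ⊥ := IsLocalRing.maximalIdeal_eq_bot
    rw [h1, ← Ideal.zero_eq_bot]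
    exact zero_pow (by omega)
  mem := hx₀
  gen := by
    rw [eq_top_iff]
    intro a _
    obtain ⟨c, rfl⟩ := residue_surjective (R := 𝒪) a
    exact Subalgebra.algebraMap_mem _ c

end Universal

end Fermat.Agent.S53.H96
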