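import Mathlib
import Fermat.Agent.S53.H96.Level
import Fermat.Agent.S53.H43.PowerSeriesMaps

set_option autoImplicit false
set_option linter.unusedSectionVars false
set_option linter.style.haveILetI false
set_option linter.unnecessarySimpa false

namespace Fermat.Agent.S53.H96

open IsLocalRing

section PS

variable {𝒪 : Type} [CommRing 𝒪] [IsLocalRing 𝒪]

/-- The ideal of variables of the power series ring. -/
noncomputable abbrev varIdeal (𝒪 : Type) [CommRing 𝒪] (N : ℕ) : Ideal (MvPowerSeries (Fin (N + 1)) 𝒪) :=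
  Ideal.span (Set.range MvPowerSeries.X)

/-- The ideal cutting out level `n` quotients in which `X 0` is the uniformizer. -/
noncomputable abbrev levelIdeal (𝒪 : Type) [CommRing 𝒪] (N : ℕ) (ϖ : 𝒪) (n : ℕ) :
    Ideal (MvPowerSeries (Fin (N + 1)) 𝒪) :=
  varIdeal 𝒪 N ^ n ⊔ Ideal.span {MvPowerSeries.X 0 - MvPowerSeries.C ϖ}

variable {N : ℕ}

lemma X_mem_maximalIdeal (i : Fin (N + 1)) :
    (MvPowerSeries.X i : MvPowerSeries (Fin (N + 1)) 𝒪) ∈
      maximalIdeal (MvPowerSeries (Fin (N + 1)) 𝒪) := by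
  rw [mem_maximalIdeal, mem_nonunits_iff, MvPowerSeries.isUnit_iff_constantCoeff,
    MvPowerSeries.constantCoeff_X]
  exact not_isUnit_zero

lemma varIdeal_le_maximalIdeal :
    varIdeal 𝒪 N ≤ maximalIdeal (MvPowerSeries (Fin (N + 1)) 𝒪) := by
  rw [Ideal.span_le]
  rintro _ ⟨i, rfl⟩
  exact X_mem_maximalIdeal i

lemma X0_sub_C_mem_maximalIdeal {ϖ : 𝒪} (hϖ : ϖ ∈ maximalIdeal 𝒪) :
    (MvPowerSeries.X 0 - MvPowerSeries.C ϖ : MvPowerSeries (Fin (N + 1)) 𝒪) ∈
      maximalIdeal (MvPowerSeries (Fin (N + 1)) 𝒪) := by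
  rw [mem_maximalIdeal, mem_nonunits_iff, MvPowerSeries.isUnit_iff_constantCoeff, map_sub,
    MvPowerSeries.constantCoeff_X, MvPowerSeries.constantCoeff_C, zero_sub, IsUnit.neg_iff]
  exact (mem_maximalIdeal _).mp hϖ

lemma maximalIdeal_le_sup {ϖ : 𝒪} (hϖ : maximalIdeal 𝒪 = Ideal.span {ϖ}) :
    maximalIdeal (MvPowerSeries (Fin (N + 1)) 𝒪) ≤
      varIdeal 𝒪 N ⊔ Ideal.span {MvPowerSeries.X 0 - MvPowerSeries.C ϖ} := by
  intro f hf
  have hf0 : MvPowerSeries.constantCoeff f ∈ maximalIdeal 𝒪 := by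
    rw [mem_maximalIdeal, mem_nonunits_iff]
    intro hu
    exact ((mem_maximalIdeal _).mp hf) (MvPowerSeries.isUnit_iff_constantCoeff.mpr hu)
  rw [hϖ, Ideal.mem_span_singleton'] at hf0
  obtain ⟨c, hc⟩ := hf0
  have hdecomp : f = ((f - MvPowerSeries.C (MvPowerSeries.constantCoeff f)) +
      MvPowerSeries.C c * MvPowerSeries.X 0) +
      (- MvPowerSeries.C c) * (MvPowerSeries.X 0 - MvPowerSeries.C ϖ) := by
    rw [← hc, map_mul]; ring
  rw [hdecomp]
  refine Ideal.add_mem _ (Ideal.mem_sup_left ?_) (Ideal.mem_sup_right ?_)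
  · exact Ideal.add_mem _ (H43.sub_C_constantCoeff_mem f)
      (Ideal.mul_mem_left _ _ (Ideal.subset_span ⟨0, rfl⟩))
  · exact Ideal.mul_mem_left _ _ (Ideal.subset_span rfl)

lemma sup_pow_le_pow_sup {R : Type} [CommRing R] (I S : Ideal R) (n : ℕ) :
    (I ⊔ S) ^ n ≤ I ^ n ⊔ S := by
  induction n with
  | zero => simp
  | succ n ih =>
    rw [pow_succ, pow_succ]
    calc (I ⊔ S) ^ n * (I ⊔ S) ≤ (I ^ n ⊔ S) * (I ⊔ S) := Ideal.mul_mono_left ih
      _ = I ^ n * I ⊔ I ^ n * S ⊔ (S * I ⊔ S * S) := by rw [Ideal.sup_mul, Ideal.mul_sup, Ideal.mul_sup]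
      _ ≤ I ^ n * I ⊔ S := by
        refine sup_le (sup_le le_sup_left (le_sup_of_le_right Ideal.mul_le_right)) ?_
        exact sup_le (le_sup_of_le_right Ideal.mul_le_left) (le_sup_of_le_right Ideal.mul_le_right)

lemma maximalIdeal_pow_le_levelIdeal {ϖ : 𝒪} (hϖ : maximalIdeal 𝒪 = Ideal.span {ϖ}) (n : ℕ) :
    maximalIdeal (MvPowerSeries (Fin (N + 1)) 𝒪) ^ n ≤ levelIdeal 𝒪 N ϖ n :=
  (Ideal.pow_right_mono (maximalIdeal_le_sup hϖ) n).trans (sup_pow_le_pow_sup _ _ n)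

lemma levelIdeal_ne_top {ϖ : 𝒪} (hϖ : maximalIdeal 𝒪 = Ideal.span {ϖ}) {n : ℕ} (hn : 1 ≤ n) :
    levelIdeal 𝒪 N ϖ n ≠ ⊤ := by
  have hϖm : ϖ ∈ maximalIdeal 𝒪 := by rw [hϖ]; exact Ideal.subset_span rfl
  have hle : levelIdeal 𝒪 N ϖ n ≤ maximalIdeal (MvPowerSeries (Fin (N + 1)) 𝒪) := by
    refine sup_le ?_ ?_
    · calc varIdeal 𝒪 N ^ n ≤ varIdeal 𝒪 N ^ 1 := Ideal.pow_le_pow_right hn
        _ = varIdeal 𝒪 N := pow_one _
        _ ≤ _ := varIdeal_le_maximalIdeal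
    · rw [Ideal.span_le, Set.singleton_subset_iff]
      exact X0_sub_C_mem_maximalIdeal hϖm
  intro htop
  rw [htop] at hle
  exact (maximalIdeal.isMaximal _).ne_top (top_le_iff.mp hle)

lemma isLocalHom_algebraMap_PS :
    IsLocalHom (algebraMap 𝒪 (MvPowerSeries (Fin (N + 1)) 𝒪)) := by
  refine ⟨fun c hc => ?_⟩
  have := MvPowerSeries.isUnit_iff_constantCoeff.mp hc
  rwa [MvPowerSeries.algebraMap_apply, Algebra.algebraMap_self, RingHom.id_apply,
    MvPowerSeries.constantCoeff_C] at this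

lemma residue_surjective_PS :
    Function.Surjective (residue (MvPowerSeries (Fin (N + 1)) 𝒪) ∘
      algebraMap 𝒪 (MvPowerSeries (Fin (N + 1)) 𝒪)) := by
  intro y
  obtain ⟨f, rfl⟩ := residue_surjective (R := MvPowerSeries (Fin (N + 1)) 𝒪) y
  refine ⟨MvPowerSeries.constantCoeff f, ?_⟩
  simp only [Function.comp_apply]
  have h1 : f - MvPowerSeries.C (MvPowerSeries.constantCoeff f) ∈
      maximalIdeal (MvPowerSeries (Fin (N + 1)) 𝒪) :=
    varIdeal_le_maximalIdeal (H43.sub_C_constantCoeff_mem f)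
  have h0 := (residue_eq_zero_iff _).mpr h1
  rw [map_sub, sub_eq_zero] at h0
  rw [h0]
  rfl

/-- The level-`n` quotient of the power series ring is a finite ring. -/
lemma finite_quotient_levelIdeal [IsNoetherianRing 𝒪] [Finite (ResidueField 𝒪)] {ϖ : 𝒪}
    (hϖ : maximalIdeal 𝒪 = Ideal.span {ϖ}) {n : ℕ} (hn : 1 ≤ n) :
    Finite (MvPowerSeries (Fin (N + 1)) 𝒪 ⧸ levelIdeal 𝒪 N ϖ n) := by
  haveI := isLocalRing_quotient (levelIdeal_ne_top (N := N) hϖ hn)
  exact testAlg_finite (testAlg_quotient isLocalHom_algebraMap_PS residue_surjective_PS _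
    (maximalIdeal_pow_le_levelIdeal hϖ n))

end PS

section Presentation

variable {𝒪 : Type} [CommRing 𝒪] [IsLocalRing 𝒪]
variable {A : Type} [CommRing A] [IsLocalRing A] [Algebra 𝒪 A] {N : ℕ}

/-- Algebra maps from the power series ring to a test algebra send the variables into the
maximal ideal. -/
lemma algHom_X_mem (hres : Function.Surjective (residue A ∘ algebraMap 𝒪 A))
    (π : MvPowerSeries (Fin (N + 1)) 𝒪 →ₐ[𝒪] A) (i : Fin (N + 1)) :
    π (MvPowerSeries.X i) ∈ maximalIdeal A := by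
  haveI := isLocalHom_of_residue_surjective hres π
  exact map_nonunit (π : MvPowerSeries (Fin (N + 1)) 𝒪 →+* A) _ (X_mem_maximalIdeal i)

lemma exists_presentation (hA : GaloisRep.IsArtinianTestAlgebra 𝒪 A) {n : ℕ}
    (hn : maximalIdeal A ^ n = ⊥) {ϖ : 𝒪} (hϖ : ϖ ∈ maximalIdeal 𝒪)
    (a : Fin N → A) (ha : ∀ i, a i ∈ maximalIdeal A)
    (hgen : Algebra.adjoin 𝒪 (Set.range a) = ⊤) :
    ∃ π : MvPowerSeries (Fin (N + 1)) 𝒪 →ₐ[𝒪] A, Function.Surjective π ∧
      π (MvPowerSeries.X 0) = algebraMap 𝒪 A ϖ := by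
  let a' : Fin (N + 1) → A := Fin.cons (algebraMap 𝒪 A ϖ) a
  have ha' : ∀ i, a' i ∈ maximalIdeal A := by
    intro i
    refine Fin.cases ?_ ?_ i
    · exact algebraMap_mem_of_mem hA.residue_surjective hϖ
    · intro j
      simpa [a'] using ha j
  obtain ⟨π, hπ⟩ := H43.exists_algHom_X (O := 𝒪) hn a' ha'
  refine ⟨π, ?_, by rw [hπ 0]; rfl⟩
  have hr : π.range = ⊤ := by
    rw [eq_top_iff, ← hgen]
    apply Algebra.adjoin_le
    rintro _ ⟨i, rfl⟩
    refine ⟨MvPowerSeries.X i.succ, ?_⟩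
    show π (MvPowerSeries.X i.succ) = a i
    rw [hπ]
    simp [a']
  intro b
  have hb : b ∈ π.range := by rw [hr]; trivial
  exact hb

lemma levelIdeal_le_ker (hres : Function.Surjective (residue A ∘ algebraMap 𝒪 A)) {n : ℕ}
    (hn : maximalIdeal A ^ n = ⊥) {ϖ : 𝒪} (π : MvPowerSeries (Fin (N + 1)) 𝒪 →ₐ[𝒪] A)
    (h0 : π (MvPowerSeries.X 0) = algebraMap 𝒪 A ϖ) :
    levelIdeal 𝒪 N ϖ n ≤ RingHom.ker (π : MvPowerSeries (Fin (N + 1)) 𝒪 →+* A) := by
  refine sup_le ?_ ?_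
  · intro f hf
    exact H43.algHom_eq_zero_of_mem_pow hn π (algHom_X_mem hres π) f hf
  · rw [Ideal.span_le, Set.singleton_subset_iff]
    show π (MvPowerSeries.X 0 - MvPowerSeries.C ϖ) = 0
    rw [map_sub, h0, MvPowerSeries.c_eq_algebraMap, AlgHom.commutes, sub_self]

lemma card_le_of_presentation [IsNoetherianRing 𝒪] [Finite (ResidueField 𝒪)] {ϖ : 𝒪}
    (hϖ : maximalIdeal 𝒪 = Ideal.span {ϖ})
    (hres : Function.Surjective (residue A ∘ algebraMap 𝒪 A)) {n : ℕ} (hn1 : 1 ≤ n)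
    (hn : maximalIdeal A ^ n = ⊥) (π : MvPowerSeries (Fin (N + 1)) 𝒪 →ₐ[𝒪] A)
    (hπ : Function.Surjective π) (h0 : π (MvPowerSeries.X 0) = algebraMap 𝒪 A ϖ) :
    Nat.card A ≤ Nat.card (MvPowerSeries (Fin (N + 1)) 𝒪 ⧸ levelIdeal 𝒪 N ϖ n) := by
  haveI := finite_quotient_levelIdeal (N := N) hϖ hn1
  refine Nat.card_le_card_of_surjective
    (Ideal.Quotient.lift (levelIdeal 𝒪 N ϖ n) (π : MvPowerSeries (Fin (N + 1)) 𝒪 →+* A)
      (fun f hf => levelIdeal_le_ker hres hn π h0 hf)) ?_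
  intro b
  obtain ⟨f, rfl⟩ := hπ b
  exact ⟨Ideal.Quotient.mk _ f, rfl⟩

end Presentation

section Existence

variable {𝒪 : Type} [CommRing 𝒪] [IsLocalRing 𝒪] [IsNoetherianRing 𝒪] [Finite (ResidueField 𝒪)]
variable {X : Type} (F : ∀ (A : Type) [CommRing A] [IsLocalRing A] [Algebra 𝒪 A], Set (X → A))

/-- Generator hypothesis: every minimal pair is generated by `N` elements of its maximal
ideal (a consequence of the finiteness of the tangent space). -/
def HasGens (N : ℕ) : Prop :=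
  ∀ (A : Type) [CommRing A] [IsLocalRing A] [Algebra 𝒪 A] (x : X → A) (n : ℕ),
    IsMinPair F n A x →
    ∃ a : Fin N → A, (∀ i, a i ∈ maximalIdeal A) ∧ Algebra.adjoin 𝒪 (Set.range a) = ⊤

theorem exists_universal_minPair' (hpush : Push F) (hglue : Glue F)
    (hpt : ∃ x₀, F (ResidueField 𝒪) = {x₀}) {N : ℕ} (hgens : HasGens F N) {ϖ : 𝒪}
    (hϖ : maximalIdeal 𝒪 = Ideal.span {ϖ}) {n : ℕ} (hn : 1 ≤ n) :
    ∃ (A : Type) (_ : CommRing A) (_ : IsLocalRing A) (_ : Algebra 𝒪 A) (x : X → A),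
      IsMinPair F n A x ∧ IsUniversalAt F n A x := by
  have hϖm : ϖ ∈ maximalIdeal 𝒪 := by rw [hϖ]; exact Ideal.subset_span rfl
  apply exists_universal_minPair F hpush hglue hpt
  · refine ⟨Nat.card (MvPowerSeries (Fin (N + 1)) 𝒪 ⧸ levelIdeal 𝒪 N ϖ n), ?_⟩
    intro C _ _ _ z hz
    obtain ⟨a, ha, hgen⟩ := hgens C z n hz
    obtain ⟨π, hπ, h0⟩ := exists_presentation hz.test hz.level hϖm a ha hgen
    exact card_le_of_presentation hϖ hz.test.residue_surjective hn hz.level π hπ h0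
  · obtain ⟨x₀, hx₀⟩ := hpt
    exact ⟨ResidueField 𝒪, inferInstance, inferInstance, inferInstance, x₀,
      isMinPair_residueField F (by rw [hx₀]; rfl) hn⟩

end Existence

section LevelData

variable {𝒪 : Type} [CommRing 𝒪] [IsLocalRing 𝒪] [IsNoetherianRing 𝒪] [Finite (ResidueField 𝒪)]
variable {X : Type} (F : ∀ (A : Type) [CommRing A] [IsLocalRing A] [Algebra 𝒪 A], Set (X → A))

/-- A universal minimal pair of level `n` together with a presentation by the power series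
ring in which `X 0` goes to the uniformizer. -/
structure LevelData (ϖ : 𝒪) (N : ℕ) (n : ℕ) : Type 1 where
  A : Type
  [cr : CommRing A]
  [lr : IsLocalRing A]
  [alg : Algebra 𝒪 A]
  x : X → A
  minPair : IsMinPair F n A x
  univ : IsUniversalAt F n A x
  π : MvPowerSeries (Fin (N + 1)) 𝒪 →ₐ[𝒪] A
  π_surj : Function.Surjective π
  π_X0 : π (MvPowerSeries.X 0) = algebraMap 𝒪 A ϖ

attribute [instance] LevelData.cr LevelData.lr LevelData.alg

theorem nonempty_levelData (hpush : Push F) (hglue : Glue F)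
    (hpt : ∃ x₀, F (ResidueField 𝒪) = {x₀}) {N : ℕ} (hgens : HasGens F N) {ϖ : 𝒪}
    (hϖ : maximalIdeal 𝒪 = Ideal.span {ϖ}) {n : ℕ} (hn : 1 ≤ n) :
    Nonempty (LevelData F ϖ N n) := by
  have hϖm : ϖ ∈ maximalIdeal 𝒪 := by rw [hϖ]; exact Ideal.subset_span rfl
  obtain ⟨A, _, _, _, x, hx, hu⟩ := exists_universal_minPair' F hpush hglue hpt hgens hϖ hn
  obtain ⟨a, ha, hgen⟩ := hgens A x n hx
  obtain ⟨π, hπ, h0⟩ := exists_presentation hx.test hx.level hϖm a ha hgen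
  exact ⟨{ A := A, x := x, minPair := hx, univ := hu, π := π, π_surj := hπ, π_X0 := h0 }⟩

/-- The step of the tower: from a level-`n` datum (`n ≥ 2`) to a compatible level-`n+1`
datum. -/
theorem exists_next_levelData (hpush : Push F) (hglue : Glue F)
    (hpt : ∃ x₀, F (ResidueField 𝒪) = {x₀}) {N : ℕ} (hgens : HasGens F N) {ϖ : 𝒪}
    (hϖ : maximalIdeal 𝒪 = Ideal.span {ϖ}) {n : ℕ} (hn : 2 ≤ n) (D : LevelData F ϖ N n) :
    ∃ (D' : LevelData F ϖ N (n + 1)) (φ : D'.A →ₐ[𝒪] D.A),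
      φ.comp D'.π = D.π ∧ (∀ i, φ (D'.x i) = D.x i) ∧
      RingHom.ker (φ : D'.A →+* D.A) ≤ maximalIdeal D'.A ^ n := by
  have hϖm : ϖ ∈ maximalIdeal 𝒪 := by rw [hϖ]; exact Ideal.subset_span rfl
  obtain ⟨A', _, _, _, x', hx', hu'⟩ :=
    exists_universal_minPair' F hpush hglue hpt hgens hϖ (n := n + 1) (by omega)
  -- the map to the level-`n` object
  have hDlevel : maximalIdeal D.A ^ (n + 1) = ⊥ := by
    rw [pow_succ, D.minPair.level, Ideal.bot_mul]
  obtain ⟨φ, hφ⟩ := hu' D.A D.minPair.test hDlevel D.x D.minPair.mem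
  have hφx : ∀ i, φ (x' i) = D.x i := fun i => congrFun hφ i
  haveI hφloc : IsLocalHom (φ : A' →+* D.A) :=
    isLocalHom_of_residue_surjective D.minPair.test.residue_surjective φ
  -- `φ` is surjective
  have hφsurj : Function.Surjective φ := by
    have hr : φ.range = ⊤ := by
      rw [eq_top_iff, ← D.minPair.gen]
      apply Algebra.adjoin_le
      rintro _ ⟨i, rfl⟩
      exact ⟨x' i, hφx i⟩
    intro b
    have hb : b ∈ φ.range := by rw [hr]; trivial
    exact hb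
  -- the kernel of `φ` is small
  have hker : RingHom.ker (φ : A' →+* D.A) ≤ maximalIdeal A' ^ n := by
    have hne : maximalIdeal A' ^ n ≠ ⊤ := by
      intro htop
      have h1 : maximalIdeal A' ^ n ≤ maximalIdeal A' := by
        calc maximalIdeal A' ^ n ≤ maximalIdeal A' ^ 1 := Ideal.pow_le_pow_right (by omega)
          _ = maximalIdeal A' := pow_one _
      rw [htop] at h1
      exact (maximalIdeal.isMaximal A').ne_top (top_le_iff.mp h1)
    haveI := isLocalRing_quotient hne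
    haveI : IsNoetherianRing A' := by
      haveI := hx'.test.isArtinian
      infer_instance
    have hB : GaloisRep.IsArtinianTestAlgebra 𝒪 (A' ⧸ maximalIdeal A' ^ n) :=
      testAlg_quotient hx'.test.isLocalHom hx'.test.residue_surjective _ le_rfl
    have hBn : maximalIdeal (A' ⧸ maximalIdeal A' ^ n) ^ n = ⊥ :=
      maximalIdeal_pow_quotient_eq_bot _ le_rfl
    have hy : (fun i => Ideal.Quotient.mkₐ 𝒪 (maximalIdeal A' ^ n) (x' i)) ∈
        F (A' ⧸ maximalIdeal A' ^ n) :=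
      hpush A' _ hx'.test hB (Ideal.Quotient.mkₐ 𝒪 (maximalIdeal A' ^ n)) x' hx'.mem
    obtain ⟨ψ, hψ⟩ := D.univ _ hB hBn _ hy
    have hcomp : ψ.comp φ = Ideal.Quotient.mkₐ 𝒪 (maximalIdeal A' ^ n) := by
      apply AlgHom.ext_of_adjoin_eq_top hx'.gen
      rintro _ ⟨i, rfl⟩
      show ψ (φ (x' i)) = _
      rw [hφx i]
      exact congrFun hψ i
    intro a ha
    have h1 : Ideal.Quotient.mkₐ 𝒪 (maximalIdeal A' ^ n) a = 0 := by
      rw [← hcomp]
      show ψ (φ a) = 0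
      have : φ a = 0 := ha
      rw [this, map_zero]
    exact Ideal.Quotient.eq_zero_iff_mem.mp h1
  -- choose lifts of the images of the variables
  have hlift : ∀ i : Fin (N + 1), ∃ a' : A', φ a' = D.π (MvPowerSeries.X i) ∧
      (i = 0 → a' = algebraMap 𝒪 A' ϖ) := by
    intro i
    by_cases hi : i = 0
    · refine ⟨algebraMap 𝒪 A' ϖ, ?_, fun _ => rfl⟩
      rw [hi, AlgHom.commutes, D.π_X0]
    · obtain ⟨a', ha'⟩ := hφsurj (D.π (MvPowerSeries.X i))
      exact ⟨a', ha', fun h => absurd h hi⟩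
  choose a' ha' ha'0 using hlift
  have ha'm : ∀ i, a' i ∈ maximalIdeal A' := by
    intro i
    rw [mem_maximalIdeal, mem_nonunits_iff]
    intro hu
    have h1 : IsUnit (φ (a' i)) := hu.map φ
    rw [ha' i] at h1
    exact ((mem_maximalIdeal _).mp (algHom_X_mem D.minPair.test.residue_surjective D.π i)) h1
  obtain ⟨π', hπ'⟩ := H43.exists_algHom_X (O := 𝒪) hx'.level a' ha'm
  have hcompπ : φ.comp π' = D.π := by
    apply H43.algHom_ext_X hDlevel
    · intro i
      show φ (π' (MvPowerSeries.X i)) ∈ _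
      rw [hπ' i, ha' i]
      exact algHom_X_mem D.minPair.test.residue_surjective D.π i
    · intro i
      show φ (π' (MvPowerSeries.X i)) = _
      rw [hπ' i, ha' i]
  -- `π'` is surjective
  have hπ'surj : Function.Surjective π' := by
    have hr : π'.range = ⊤ := by
      apply testAlg_subalgebra_eq_top hx'.test
      intro u _
      obtain ⟨f, hf⟩ := D.π_surj (φ u)
      refine ⟨π' f, ⟨f, rfl⟩, ?_⟩
      have h2 : u - π' f ∈ RingHom.ker (φ : A' →+* D.A) := by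
        show φ (u - π' f) = 0
        rw [map_sub, sub_eq_zero, ← hf, ← hcompπ]
        rfl
      exact Ideal.pow_le_pow_right hn (hker h2)
    intro b
    have hb : b ∈ π'.range := by rw [hr]; trivial
    exact hb
  refine ⟨{ A := A', x := x', minPair := hx', univ := hu', π := π', π_surj := hπ'surj,
            π_X0 := by rw [hπ' 0]; exact ha'0 0 rfl }, φ, hcompπ, hφx, hker⟩

end LevelData

end Fermat.Agent.S53.H96
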