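import Mathlib
import Fermat.Agent.S53.H96.Present
import Fermat.Agent.S53.H86.Limit

set_option autoImplicit false
set_option linter.unusedSectionVars false
set_option linter.style.haveILetI false
set_option linter.unnecessarySimpa false

namespace Fermat.Agent.S53.H96

open IsLocalRing

/-- Dependent sequences from a step relation. -/
theorem exists_dep_seq {α : ℕ → Type 1} (R : ∀ j, α j → α (j + 1) → Prop)
    (h0 : Nonempty (α 0)) (hstep : ∀ j (a : α j), ∃ b, R j a b) :
    ∃ f : ∀ j, α j, ∀ j, R j (f j) (f (j + 1)) := by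
  classical
  let f : ∀ j, α j := fun j =>
    Nat.rec (Classical.choice h0) (fun j a => Classical.choose (hstep j a)) j
  exact ⟨f, fun j => Classical.choose_spec (hstep j (f j))⟩

/-- In a Hausdorff ring, two elements congruent modulo all powers are equal. -/
lemma eq_of_forall_sub_mem_pow {A : Type} [CommRing A] (I : Ideal A) [IsHausdorff I A]
    {a b : A} (h : ∀ n, a - b ∈ I ^ n) : a = b := by
  rw [← sub_eq_zero]
  apply IsHausdorff.haus (I := I) inferInstance
  intro n
  rw [SModEq.zero, smul_eq_mul, Ideal.mul_top]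
  exact h n

section MaxMap

variable {𝒪 : Type} [CommRing 𝒪] [IsLocalRing 𝒪]
variable {A : Type} [CommRing A] [IsLocalRing A] [Algebra 𝒪 A] {N : ℕ}

/-- The maximal ideal of a quotient of the power series ring in which `X 0` becomes the
uniformizer is generated by the variables. -/
lemma maximalIdeal_eq_map (hres : Function.Surjective (residue A ∘ algebraMap 𝒪 A)) {ϖ : 𝒪}
    (hϖ : maximalIdeal 𝒪 = Ideal.span {ϖ}) (π : MvPowerSeries (Fin (N + 1)) 𝒪 →ₐ[𝒪] A)
    (hπ : Function.Surjective π) (h0 : π (MvPowerSeries.X 0) = algebraMap 𝒪 A ϖ) :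
    maximalIdeal A = (varIdeal 𝒪 N).map (π : MvPowerSeries (Fin (N + 1)) 𝒪 →+* A) := by
  haveI := isLocalHom_of_residue_surjective hres π
  apply le_antisymm
  · intro u hu
    obtain ⟨f, rfl⟩ := hπ u
    have hf : f ∈ maximalIdeal (MvPowerSeries (Fin (N + 1)) 𝒪) := by
      rw [mem_maximalIdeal, mem_nonunits_iff]
      intro hfu
      exact ((mem_maximalIdeal _).mp hu) (hfu.map π)
    obtain ⟨g, hg, h, hh, rfl⟩ := Submodule.mem_sup.mp (maximalIdeal_le_sup hϖ hf)
    have hh0 : π h = 0 := by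
      have hle : Ideal.span {MvPowerSeries.X 0 - MvPowerSeries.C ϖ} ≤
          RingHom.ker (π : MvPowerSeries (Fin (N + 1)) 𝒪 →+* A) := by
        rw [Ideal.span_le, Set.singleton_subset_iff]
        show π (MvPowerSeries.X 0 - MvPowerSeries.C ϖ) = 0
        rw [map_sub, h0, MvPowerSeries.c_eq_algebraMap, AlgHom.commutes, sub_self]
      exact hle hh
    rw [map_add, hh0, add_zero]
    exact Ideal.mem_map_of_mem _ hg
  · rw [Ideal.map_span, Ideal.span_le]
    rintro _ ⟨_, ⟨i, rfl⟩, rfl⟩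
    exact algHom_X_mem hres π i

end MaxMap

section Limit

variable {𝒪 : Type} [CommRing 𝒪] [IsLocalRing 𝒪] [IsNoetherianRing 𝒪] [Finite (ResidueField 𝒪)]
variable {X : Type} {F : ∀ (A : Type) [CommRing A] [IsLocalRing A] [Algebra 𝒪 A], Set (X → A)}
variable {ϖ : 𝒪} {N : ℕ}
variable (D : ∀ j : ℕ, LevelData F ϖ N (j + 2))
variable (φ : ∀ j, (D (j + 1)).A →ₐ[𝒪] (D j).A)

/-- The kernels of the presentations in the tower. -/
noncomputable def towerKer (j : ℕ) : Ideal (MvPowerSeries (Fin (N + 1)) 𝒪) :=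
  RingHom.ker ((D j).π : MvPowerSeries (Fin (N + 1)) 𝒪 →+* (D j).A)

/-- The intersection of all kernels. -/
noncomputable def towerJ : Ideal (MvPowerSeries (Fin (N + 1)) 𝒪) := ⨅ j, towerKer D j

lemma mem_towerKer {j : ℕ} {f : MvPowerSeries (Fin (N + 1)) 𝒪} :
    f ∈ towerKer D j ↔ (D j).π f = 0 := Iff.rfl

lemma levelIdeal_le_towerKer (j : ℕ) : levelIdeal 𝒪 N ϖ (j + 2) ≤ towerKer D j :=
  levelIdeal_le_ker (D j).minPair.test.residue_surjective (D j).minPair.level (D j).π (D j).π_X0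

lemma pow_le_towerKer (j : ℕ) : varIdeal 𝒪 N ^ (j + 2) ≤ towerKer D j :=
  le_sup_left.trans (levelIdeal_le_towerKer D j)

lemma X0_mem_towerKer (j : ℕ) :
    (MvPowerSeries.X 0 - MvPowerSeries.C ϖ : MvPowerSeries (Fin (N + 1)) 𝒪) ∈ towerKer D j :=
  levelIdeal_le_towerKer D j (Ideal.mem_sup_right (Ideal.subset_span rfl))

lemma X0_mem_towerJ :
    (MvPowerSeries.X 0 - MvPowerSeries.C ϖ : MvPowerSeries (Fin (N + 1)) 𝒪) ∈ towerJ D := by
  rw [towerJ, Ideal.mem_iInf]
  exact fun j => X0_mem_towerKer D j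

lemma towerJ_ne_top : towerJ D ≠ ⊤ := by
  intro htop
  have h1 : (1 : MvPowerSeries (Fin (N + 1)) 𝒪) ∈ towerKer D 0 := by
    have : (1 : MvPowerSeries (Fin (N + 1)) 𝒪) ∈ towerJ D := by rw [htop]; trivial
    exact (iInf_le (towerKer D) 0) this
  rw [mem_towerKer, map_one] at h1
  exact one_ne_zero h1

variable {D φ}

section WithCompat

variable (hcomp : ∀ j, (φ j).comp (D (j + 1)).π = (D j).π)

include hcomp in
lemma towerKer_succ_le (j : ℕ) : towerKer D (j + 1) ≤ towerKer D j := by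
  intro f hf
  rw [mem_towerKer] at hf ⊢
  rw [← hcomp j]
  show φ j ((D (j + 1)).π f) = 0
  rw [hf, map_zero]

include hcomp in
lemma towerKer_le_sup (hϖ : maximalIdeal 𝒪 = Ideal.span {ϖ})
    (hker : ∀ j, RingHom.ker (φ j : (D (j + 1)).A →+* (D j).A) ≤
      maximalIdeal (D (j + 1)).A ^ (j + 2)) (j : ℕ) :
    towerKer D j ≤ towerKer D (j + 1) ⊔ varIdeal 𝒪 N ^ (j + 2) := by
  intro f hf
  rw [mem_towerKer] at hf
  have h1 : (D (j + 1)).π f ∈ RingHom.ker (φ j : (D (j + 1)).A →+* (D j).A) := by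
    show φ j ((D (j + 1)).π f) = 0
    have := congrArg (fun ψ => ψ f) (hcomp j)
    simp only [AlgHom.comp_apply] at this
    rw [this, hf]
  have h2 := hker j h1
  rw [maximalIdeal_eq_map (D (j + 1)).minPair.test.residue_surjective hϖ (D (j + 1)).π
    (D (j + 1)).π_surj (D (j + 1)).π_X0, ← Ideal.map_pow] at h2
  obtain ⟨g, hg, hgf⟩ := (Ideal.mem_map_iff_of_surjective _ (D (j + 1)).π_surj).mp h2
  have h3 : f - g ∈ towerKer D (j + 1) := by
    rw [mem_towerKer, map_sub, sub_eq_zero]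
    exact hgf.symm
  have : f = (f - g) + g := by ring
  rw [this]
  exact Ideal.add_mem _ (Ideal.mem_sup_left h3) (Ideal.mem_sup_right hg)

include hcomp in
lemma towerKer_le_J_sup (hϖ : maximalIdeal 𝒪 = Ideal.span {ϖ})
    (hker : ∀ j, RingHom.ker (φ j : (D (j + 1)).A →+* (D j).A) ≤
      maximalIdeal (D (j + 1)).A ^ (j + 2)) (j : ℕ) :
    towerKer D j ≤ towerJ D ⊔ varIdeal 𝒪 N ^ (j + 2) :=
  H86.le_iInf_sup_pow (varIdeal 𝒪 N) (towerKer D) (fun j => j + 2)
    (fun a b hab => by simpa using hab) (fun j => by omega) (towerKer_succ_le hcomp)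
    (pow_le_towerKer D) (towerKer_le_sup hcomp hϖ hker) j

end WithCompat

end Limit

section Ring

variable {𝒪 : Type} [CommRing 𝒪] [IsLocalRing 𝒪] [IsNoetherianRing 𝒪] [Finite (ResidueField 𝒪)]
variable {X : Type} {F : ∀ (A : Type) [CommRing A] [IsLocalRing A] [Algebra 𝒪 A], Set (X → A)}
variable {ϖ : 𝒪} {N : ℕ}
variable (D : ∀ j : ℕ, LevelData F ϖ N (j + 2))
variable {φ : ∀ j, (D (j + 1)).A →ₐ[𝒪] (D j).A}

/-- The limit ring of the tower. -/
abbrev TowerRing : Type := MvPowerSeries (Fin (N + 1)) 𝒪 ⧸ towerJ D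

instance towerRing_isLocalRing : IsLocalRing (TowerRing D) :=
  isLocalRing_quotient (towerJ_ne_top D)

/-- The projections of the limit ring to the levels of the tower. -/
noncomputable def towerProj (j : ℕ) : TowerRing D →ₐ[𝒪] (D j).A :=
  Ideal.Quotient.liftₐ (towerJ D) (D j).π (fun f hf => (iInf_le (towerKer D) j) hf)

lemma towerProj_mk (j : ℕ) (f : MvPowerSeries (Fin (N + 1)) 𝒪) :
    towerProj D j (Ideal.Quotient.mk (towerJ D) f) = (D j).π f := rfl

lemma towerProj_surjective (j : ℕ) : Function.Surjective (towerProj D j) := by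
  intro a
  obtain ⟨f, rfl⟩ := (D j).π_surj a
  exact ⟨Ideal.Quotient.mk _ f, rfl⟩

lemma towerRing_maximalIdeal (hϖ : maximalIdeal 𝒪 = Ideal.span {ϖ}) :
    maximalIdeal (TowerRing D) = (varIdeal 𝒪 N).map (Ideal.Quotient.mk (towerJ D)) :=
  H43.maximalIdeal_quotient_eq ϖ hϖ (towerJ D) (X0_mem_towerJ D)

lemma towerRing_isAdicComplete (hϖ : maximalIdeal 𝒪 = Ideal.span {ϖ}) :
    IsAdicComplete (maximalIdeal (TowerRing D)) (TowerRing D) :=
  H43.isAdicComplete_quotient ϖ hϖ (towerJ D) (X0_mem_towerJ D)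

lemma towerRing_isLocalHom : IsLocalHom (algebraMap 𝒪 (TowerRing D)) := by
  refine ⟨fun c hc => ?_⟩
  have h1 : IsUnit (towerProj D 0 (algebraMap 𝒪 (TowerRing D) c)) := hc.map _
  rw [AlgHom.commutes] at h1
  exact (D 0).minPair.test.isLocalHom.map_nonunit c h1

lemma towerRing_residue_surjective :
    Function.Surjective (residue (TowerRing D) ∘ algebraMap 𝒪 (TowerRing D)) := by
  intro y
  obtain ⟨r, rfl⟩ := residue_surjective (R := TowerRing D) y
  obtain ⟨c, hc⟩ := exists_sub_mem (D 0).minPair.test.residue_surjective (towerProj D 0 r)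
  refine ⟨c, ?_⟩
  simp only [Function.comp_apply]
  have h1 : r - algebraMap 𝒪 (TowerRing D) c ∈ maximalIdeal (TowerRing D) := by
    rw [mem_maximalIdeal, mem_nonunits_iff]
    intro hu
    have h2 : IsUnit (towerProj D 0 (r - algebraMap 𝒪 (TowerRing D) c)) := hu.map _
    rw [map_sub, AlgHom.commutes] at h2
    exact ((mem_maximalIdeal _).mp hc) h2
  have h0 := (residue_eq_zero_iff _).mpr h1
  rw [map_sub, sub_eq_zero] at h0
  exact h0.symm

section WithCompat

variable (hcomp : ∀ j, (φ j).comp (D (j + 1)).π = (D j).π)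

include hcomp in
lemma towerProj_comp (j : ℕ) : (φ j).comp (towerProj D (j + 1)) = towerProj D j := by
  apply AlgHom.ext
  intro r
  obtain ⟨f, rfl⟩ := Ideal.Quotient.mk_surjective r
  show φ j ((D (j + 1)).π f) = (D j).π f
  have := congrArg (fun ψ => ψ f) (hcomp j)
  simpa only [AlgHom.comp_apply] using this

include hcomp in
lemma ker_towerProj (hϖ : maximalIdeal 𝒪 = Ideal.span {ϖ})
    (hker : ∀ j, RingHom.ker (φ j : (D (j + 1)).A →+* (D j).A) ≤
      maximalIdeal (D (j + 1)).A ^ (j + 2)) (j : ℕ) :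
    RingHom.ker (towerProj D j : TowerRing D →+* (D j).A) =
      maximalIdeal (TowerRing D) ^ (j + 2) := by
  rw [towerRing_maximalIdeal D hϖ, ← Ideal.map_pow]
  apply le_antisymm
  · intro r hr
    obtain ⟨f, rfl⟩ := Ideal.Quotient.mk_surjective r
    have hf : f ∈ towerKer D j := hr
    obtain ⟨a, ha, b, hb, rfl⟩ := Submodule.mem_sup.mp (towerKer_le_J_sup hcomp hϖ hker j hf)
    rw [map_add, Ideal.Quotient.eq_zero_iff_mem.mpr ha, zero_add]
    exact Ideal.mem_map_of_mem _ hb
  · rw [Ideal.map_le_iff_le_comap]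
    intro g hg
    show towerProj D j (Ideal.Quotient.mk _ g) = 0
    rw [towerProj_mk]
    exact pow_le_towerKer D j hg

include hcomp in
/-- The universal family in the limit ring. -/
lemma exists_towerFamily (hϖ : maximalIdeal 𝒪 = Ideal.span {ϖ})
    (hx : ∀ j i, φ j ((D (j + 1)).x i) = (D j).x i)
    (hker : ∀ j, RingHom.ker (φ j : (D (j + 1)).A →+* (D j).A) ≤
      maximalIdeal (D (j + 1)).A ^ (j + 2)) :
    ∃ xu : X → TowerRing D, ∀ j i, towerProj D j (xu i) = (D j).x i := by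
  have key : ∀ i : X, ∃ r : TowerRing D, ∀ j, towerProj D j r = (D j).x i := by
    intro i
    choose p hp using fun j => (D j).π_surj ((D j).x i)
    have hpc : ∀ j, p (j + 1) - p j ∈ towerKer D j := by
      intro j
      rw [mem_towerKer, map_sub, sub_eq_zero, hp j]
      have := congrArg (fun ψ => ψ (p (j + 1))) (hcomp j)
      simp only [AlgHom.comp_apply] at this
      rw [← this, hp (j + 1), hx j i]
    obtain ⟨q, hq⟩ := H86.exists_limit_of_compatible' (varIdeal 𝒪 N) (towerKer D)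
      (fun j => j + 2) (fun a b hab => by simpa using hab) (fun j => by omega)
      (towerKer_succ_le hcomp) (pow_le_towerKer D) (towerKer_le_sup hcomp hϖ hker) p hpc
    refine ⟨Ideal.Quotient.mk _ q, fun j => ?_⟩
    rw [towerProj_mk, ← hp j]
    have := hq j
    rw [mem_towerKer, map_sub, sub_eq_zero] at this
    exact this
  choose xu hxu using key
  exact ⟨xu, fun j i => hxu i j⟩

end WithCompat

end Ring

section Final

variable {𝒪 : Type} [CommRing 𝒪] [IsLocalRing 𝒪] [IsNoetherianRing 𝒪] [Finite (ResidueField 𝒪)]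
variable {X : Type} {F : ∀ (A : Type) [CommRing A] [IsLocalRing A] [Algebra 𝒪 A], Set (X → A)}

/-- Continuity hypothesis of the abstract statement. -/
def Cont (F : ∀ (A : Type) [CommRing A] [IsLocalRing A] [Algebra 𝒪 A], Set (X → A)) : Prop :=
  ∀ (A : Type) [CommRing A] [IsLocalRing A] [IsNoetherianRing A]
    [IsAdicComplete (maximalIdeal A) A] [Algebra 𝒪 A],
    IsLocalHom (algebraMap 𝒪 A) → Function.Surjective (residue A ∘ algebraMap 𝒪 A) →
    ∀ x : X → A, x ∈ F A ↔
      ∀ (B : Type) [CommRing B] [IsLocalRing B] [Algebra 𝒪 B],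
        GaloisRep.IsArtinianTestAlgebra 𝒪 B → ∀ q : A →ₐ[𝒪] B, Function.Surjective q →
          (fun i => q (x i)) ∈ F B

variable {ϖ : 𝒪} {N : ℕ}
variable (D : ∀ j : ℕ, LevelData F ϖ N (j + 2))
variable {φ : ∀ j, (D (j + 1)).A →ₐ[𝒪] (D j).A}
variable (hcomp : ∀ j, (φ j).comp (D (j + 1)).π = (D j).π)
variable (hϖ : maximalIdeal 𝒪 = Ideal.span {ϖ})
variable (hker : ∀ j, RingHom.ker (φ j : (D (j + 1)).A →+* (D j).A) ≤
      maximalIdeal (D (j + 1)).A ^ (j + 2))

include hcomp hϖ hker in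
/-- Algebra maps from the limit ring to a local algebra with nilpotent maximal ideal factor
through a level of the tower. -/
lemma exists_factor_towerProj {B : Type} [CommRing B] [IsLocalRing B] [Algebra 𝒪 B]
    (hBres : Function.Surjective (residue B ∘ algebraMap 𝒪 B)) {n : ℕ}
    (hBn : maximalIdeal B ^ n = ⊥) (α : TowerRing D →ₐ[𝒪] B) :
    ∃ α' : (D n).A →ₐ[𝒪] B, α'.comp (towerProj D n) = α := by
  apply exists_algHom_comp_eq (towerProj D n) (towerProj_surjective D n) α
  rw [ker_towerProj D hcomp hϖ hker n]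
  intro z hz
  haveI := isLocalHom_of_residue_surjective hBres α
  have h1 := map_mem_maximalIdeal_pow (α : TowerRing D →+* B) hz
  have h2 : maximalIdeal B ^ (n + 2) ≤ maximalIdeal B ^ n := Ideal.pow_le_pow_right (by omega)
  have h3 := h2 h1
  rw [hBn] at h3
  exact h3

include hcomp hϖ hker in
lemma towerRing_algHom_ext {B : Type} [CommRing B] [IsLocalRing B] [Algebra 𝒪 B]
    (hBres : Function.Surjective (residue B ∘ algebraMap 𝒪 B)) {n : ℕ}
    (hBn : maximalIdeal B ^ n = ⊥) (xu : X → TowerRing D)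
    (hxu : ∀ j i, towerProj D j (xu i) = (D j).x i) (α β : TowerRing D →ₐ[𝒪] B)
    (h : ∀ i, α (xu i) = β (xu i)) : α = β := by
  obtain ⟨α', rfl⟩ := exists_factor_towerProj D hcomp hϖ hker hBres hBn α
  obtain ⟨β', rfl⟩ := exists_factor_towerProj D hcomp hϖ hker hBres hBn β
  have hαβ : α' = β' := by
    apply AlgHom.ext_of_adjoin_eq_top (D n).minPair.gen
    rintro _ ⟨i, rfl⟩
    have := h i
    simp only [AlgHom.comp_apply, hxu] at this
    exact this
  rw [hαβ]

include hcomp hϖ hker in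
lemma towerFamily_mem (hpush : Push F) (hcont : Cont F) (xu : X → TowerRing D)
    (hxu : ∀ j i, towerProj D j (xu i) = (D j).x i) : xu ∈ F (TowerRing D) := by
  haveI := towerRing_isAdicComplete D hϖ
  rw [hcont (TowerRing D) (towerRing_isLocalHom D) (towerRing_residue_surjective D) xu]
  intro B _ _ _ hB q _
  obtain ⟨n, hn⟩ := testAlg_exists_pow_eq_bot hB
  obtain ⟨q', rfl⟩ := exists_factor_towerProj D hcomp hϖ hker hB.residue_surjective hn q
  have h1 := hpush (D n).A B (D n).minPair.test hB q' (D n).x (D n).minPair.mem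
  have h2 : (fun i => (q'.comp (towerProj D n)) (xu i)) = fun i => q' ((D n).x i) := by
    funext i
    rw [AlgHom.comp_apply, hxu]
  rw [h2]
  exact h1

include hcomp hϖ hker in
lemma towerRing_algHom_ext_quotient (xu : X → TowerRing D)
    (hxu : ∀ j i, towerProj D j (xu i) = (D j).x i)
    {A : Type} [CommRing A] [IsLocalRing A] [IsNoetherianRing A] [Algebra 𝒪 A]
    (hloc : IsLocalHom (algebraMap 𝒪 A))
    (hres : Function.Surjective (residue A ∘ algebraMap 𝒪 A)) (m : ℕ)
    (α β : TowerRing D →ₐ[𝒪] A ⧸ maximalIdeal A ^ m) (h : ∀ i, α (xu i) = β (xu i)) :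
    α = β := by
  cases m with
  | zero =>
    haveI : Subsingleton (A ⧸ maximalIdeal A ^ 0) := by
      rw [Ideal.Quotient.subsingleton_iff, pow_zero, Ideal.one_eq_top]
    exact AlgHom.ext fun r => Subsingleton.elim _ _
  | succ k =>
    have hne : maximalIdeal A ^ (k + 1) ≠ ⊤ := by
      intro htop
      have h1 : maximalIdeal A ^ (k + 1) ≤ maximalIdeal A := by
        calc maximalIdeal A ^ (k + 1) ≤ maximalIdeal A ^ 1 := Ideal.pow_le_pow_right (by omega)
          _ = maximalIdeal A := pow_one _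
      rw [htop] at h1
      exact (maximalIdeal.isMaximal A).ne_top (top_le_iff.mp h1)
    haveI := isLocalRing_quotient hne
    have hQ : GaloisRep.IsArtinianTestAlgebra 𝒪 (A ⧸ maximalIdeal A ^ (k + 1)) :=
      testAlg_quotient hloc hres _ le_rfl
    exact towerRing_algHom_ext D hcomp hϖ hker hQ.residue_surjective
      (maximalIdeal_pow_quotient_eq_bot _ le_rfl) xu hxu α β h

include hcomp hϖ hker in
lemma towerRing_universal (hcont : Cont F) (xu : X → TowerRing D)
    (hxu : ∀ j i, towerProj D j (xu i) = (D j).x i)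
    {A : Type} [CommRing A] [IsLocalRing A] [IsNoetherianRing A]
    [IsAdicComplete (maximalIdeal A) A] [Algebra 𝒪 A]
    (hloc : IsLocalHom (algebraMap 𝒪 A))
    (hres : Function.Surjective (residue A ∘ algebraMap 𝒪 A)) (y : X → A) (hy : y ∈ F A) :
    ∃! ψ : TowerRing D →ₐ[𝒪] A, (fun i => ψ (xu i)) = y := by
  -- level-wise maps
  have key1 : ∀ n : ℕ, ∃ g : TowerRing D →ₐ[𝒪] A ⧸ maximalIdeal A ^ (n + 1),
      ∀ i, g (xu i) = Ideal.Quotient.mk _ (y i) := by
    intro n
    have hne : maximalIdeal A ^ (n + 1) ≠ ⊤ := by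
      intro htop
      have h1 : maximalIdeal A ^ (n + 1) ≤ maximalIdeal A := by
        calc maximalIdeal A ^ (n + 1) ≤ maximalIdeal A ^ 1 := Ideal.pow_le_pow_right (by omega)
          _ = maximalIdeal A := pow_one _
      rw [htop] at h1
      exact (maximalIdeal.isMaximal A).ne_top (top_le_iff.mp h1)
    haveI := isLocalRing_quotient hne
    have hQ : GaloisRep.IsArtinianTestAlgebra 𝒪 (A ⧸ maximalIdeal A ^ (n + 1)) :=
      testAlg_quotient hloc hres _ le_rfl
    have hQn : maximalIdeal (A ⧸ maximalIdeal A ^ (n + 1)) ^ (n + 2) = ⊥ := by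
      have h1 : maximalIdeal (A ⧸ maximalIdeal A ^ (n + 1)) ^ (n + 1) = ⊥ :=
        maximalIdeal_pow_quotient_eq_bot _ le_rfl
      have h2 := Ideal.pow_le_pow_right (I := maximalIdeal (A ⧸ maximalIdeal A ^ (n + 1)))
        (Nat.le_succ (n + 1))
      rw [h1] at h2
      exact le_bot_iff.mp h2
    have hyn : (fun i => Ideal.Quotient.mkₐ 𝒪 (maximalIdeal A ^ (n + 1)) (y i)) ∈
        F (A ⧸ maximalIdeal A ^ (n + 1)) :=
      (hcont A hloc hres y).mp hy _ hQ (Ideal.Quotient.mkₐ 𝒪 (maximalIdeal A ^ (n + 1)))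
        (Ideal.Quotient.mkₐ_surjective 𝒪 _)
    obtain ⟨ψ, hψ⟩ := (D n).univ _ hQ hQn _ hyn
    refine ⟨ψ.comp (towerProj D n), fun i => ?_⟩
    rw [AlgHom.comp_apply, hxu]
    exact congrFun hψ i
  choose g hg using key1
  let f : ∀ n : ℕ, TowerRing D →ₐ[𝒪] A ⧸ maximalIdeal A ^ n := fun n =>
    (Ideal.Quotient.factorₐ 𝒪 (Ideal.pow_le_pow_right (Nat.le_succ n))).comp (g n)
  have hf : ∀ n i, f n (xu i) = Ideal.Quotient.mk _ (y i) := by
    intro n i
    show Ideal.Quotient.factorₐ 𝒪 (Ideal.pow_le_pow_right (Nat.le_succ n)) (g n (xu i)) = _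
    rw [hg n i]
    rfl
  have hcompat : ∀ {m n : ℕ} (hle : m ≤ n),
      (Ideal.Quotient.factorₐ 𝒪 (Ideal.pow_le_pow_right hle)).comp (f n) = f m := by
    intro m n hle
    apply towerRing_algHom_ext_quotient D hcomp hϖ hker xu hxu hloc hres m
    intro i
    rw [AlgHom.comp_apply, hf n i, hf m i]
    rfl
  refine ⟨IsAdicComplete.liftAlgHom (maximalIdeal A) f hcompat, ?_, ?_⟩
  · funext i
    apply eq_of_forall_sub_mem_pow (maximalIdeal A)
    intro n
    rw [← Ideal.Quotient.eq, IsAdicComplete.mk_liftAlgHom, hf n i]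
  · intro ψ' hψ'
    apply IsAdicComplete.algHom_ext (maximalIdeal A)
    intro n
    apply towerRing_algHom_ext_quotient D hcomp hϖ hker xu hxu hloc hres n
    intro i
    rw [AlgHom.comp_apply, AlgHom.comp_apply]
    have h1 : ψ' (xu i) = y i := congrFun hψ' i
    rw [h1]
    show Ideal.Quotient.mk _ (y i) = Ideal.Quotient.mk _ (IsAdicComplete.liftAlgHom _ f hcompat (xu i))
    rw [IsAdicComplete.mk_liftAlgHom, hf n i]

end Final

end Fermat.Agent.S53.H96
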