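import Mathlib
import Fermat.Agent.S53.H96.Statement
import Fermat.Agent.S53.H96.Tower
import Fermat.Agent.S53.H93.TangentBound

set_option autoImplicit false
set_option linter.unusedSectionVars false
set_option linter.style.haveILetI false
set_option linter.unnecessarySimpa false

namespace Fermat.Agent.S53.H96

open IsLocalRing

section Gens

variable {𝒪 : Type} [CommRing 𝒪] [IsLocalRing 𝒪] [Finite (ResidueField 𝒪)]
variable {X : Type} (F : ∀ (A : Type) [CommRing A] [IsLocalRing A] [Algebra 𝒪 A], Set (X → A))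

/-- Finiteness of the tangent space bounds the number of generators of minimal pairs. -/
theorem hasGens_of_tan (hpush : Push F)
    (htan : (@F (DualNumber (ResidueField 𝒪)) _ _ (dualNumberAlgebra 𝒪)).Finite) :
    ∃ N, HasGens F N := by
  letI := dualNumberAlgebra 𝒪
  haveI : Finite ↥(F (DualNumber (ResidueField 𝒪))) := htan.to_subtype
  refine ⟨Nat.card ↥(F (DualNumber (ResidueField 𝒪))), ?_⟩
  intro A _ _ _ x n hx
  apply H93.exists_generators hx.test
  have hinj : Function.Injective (fun ψ : A →ₐ[𝒪] DualNumber (ResidueField 𝒪) =>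
      (⟨fun i => ψ (x i), hpush A _ hx.test (testAlg_dualNumber 𝒪) ψ x hx.mem⟩ :
        ↥(F (DualNumber (ResidueField 𝒪))))) := by
    intro ψ ψ' h
    apply AlgHom.ext_of_adjoin_eq_top hx.gen
    rintro _ ⟨i, rfl⟩
    exact congrFun (congrArg Subtype.val h) i
  have h1 : Nat.card (A →ₐ[𝒪] DualNumber (ResidueField 𝒪)) ≤
      Nat.card ↥(F (DualNumber (ResidueField 𝒪))) := Nat.card_le_card_of_injective _ hinj
  have hq : 2 ≤ Nat.card (ResidueField 𝒪) := Finite.one_lt_card
  have h2 : Nat.card ↥(F (DualNumber (ResidueField 𝒪))) <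
      Nat.card (ResidueField 𝒪) ^ (Nat.card ↥(F (DualNumber (ResidueField 𝒪))) + 1) := by
    calc Nat.card ↥(F (DualNumber (ResidueField 𝒪)))
        < 2 ^ Nat.card ↥(F (DualNumber (ResidueField 𝒪))) := Nat.lt_two_pow_self
      _ ≤ 2 ^ (Nat.card ↥(F (DualNumber (ResidueField 𝒪))) + 1) :=
          Nat.pow_le_pow_right (by norm_num) (Nat.le_succ _)
      _ ≤ _ := Nat.pow_le_pow_left hq _
  exact lt_of_le_of_lt h1 h2

end Gens

/-- The abstract pro-representability theorem. -/
theorem abstractStatement_holds (𝒪 : Type) [CommRing 𝒪] [IsDomain 𝒪]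
    [IsDiscreteValuationRing 𝒪] [IsAdicComplete (maximalIdeal 𝒪) 𝒪]
    [Finite (ResidueField 𝒪)] : AbstractStatement 𝒪 := by
  intro X F hpush hglue hpt htan hcont
  obtain ⟨ϖ, hϖirr⟩ := IsDiscreteValuationRing.exists_irreducible 𝒪
  have hϖ : maximalIdeal 𝒪 = Ideal.span {ϖ} := hϖirr.maximalIdeal_eq
  obtain ⟨N, hgens⟩ : ∃ N, HasGens F N := hasGens_of_tan F hpush htan
  have h0 : Nonempty (LevelData F ϖ N (0 + 2)) :=
    nonempty_levelData F hpush hglue hpt hgens hϖ (by omega)
  obtain ⟨D, hD⟩ := exists_dep_seq (α := fun j => LevelData F ϖ N (j + 2))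
    (fun j D D' => ∃ φ : D'.A →ₐ[𝒪] D.A, φ.comp D'.π = D.π ∧ (∀ i, φ (D'.x i) = D.x i) ∧
      RingHom.ker (φ : D'.A →+* D.A) ≤ maximalIdeal D'.A ^ (j + 2))
    h0 (fun j D => exists_next_levelData F hpush hglue hpt hgens hϖ (by omega) D)
  choose φ hcomp hx hker using hD
  obtain ⟨xu, hxu⟩ := exists_towerFamily D hcomp hϖ hx hker
  refine ⟨TowerRing D, inferInstance, inferInstance, inferInstance,
    towerRing_isAdicComplete D hϖ, inferInstance, towerRing_isLocalHom D,
    towerRing_residue_surjective D, xu, towerFamily_mem D hcomp hϖ hker hpush hcont xu hxu, ?_⟩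
  intro A _ _ _ _ _ hloc hres y hy
  exact towerRing_universal D hcomp hϖ hker hcont xu hxu hloc hres y hy

end Fermat.Agent.S53.H96
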